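import Fermat.Agent.LTF.Chain.Forms

/-!
# The `5`-switch at a curve with `a₂ = ± 2`: construction of a curve multiplicative at `2`
-/

set_option autoImplicit false

namespace Fermat.Agent.LTF.Chain

open WeierstrassCurve Fermat.Agent.S52x

/-- Supersingular reduction at `2` with `a₂ = ± 2`. -/
def SS (W : WeierstrassCurve ℤ) : Prop :=
  (2 : ℤ) ∣ W.a₁ ∧ ¬ (2 : ℤ) ∣ W.a₃ ∧ ¬ (2 : ℤ) ∣ W.a₂ + W.a₄

theorem SS.c {W : WeierstrassCurve ℤ} (h : SS W) :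
    ∃ x y : ℤ, W.c₄ = 16 * x ∧ W.c₆ = 8 * y ∧ ¬ (2 : ℤ) ∣ x ∧ (4 : ℤ) ∣ y - 1 := by
  obtain ⟨⟨k, hk⟩, h3, h24⟩ := h
  obtain ⟨j, hj⟩ : ∃ j, W.a₃ = 2 * j + 1 := by
    have := Int.emod_two_eq_zero_or_one W.a₃
    exact ⟨W.a₃ / 2, by omega⟩
  refine ⟨(k ^ 2 + W.a₂) ^ 2 - 3 * (W.a₄ + k * (2 * j + 1)),
    -8 * (k ^ 2 + W.a₂) ^ 3 + 36 * (k ^ 2 + W.a₂) * (W.a₄ + k * (2 * j + 1))
      - 27 * ((2 * j + 1) ^ 2 + 4 * W.a₆), ?_, ?_, ?_, ?_⟩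
  · simp only [WeierstrassCurve.c₄, WeierstrassCurve.b₂, WeierstrassCurve.b₄, hk, hj]
    ring
  · simp only [WeierstrassCurve.c₆, WeierstrassCurve.b₂, WeierstrassCurve.b₄,
      WeierstrassCurve.b₆, hk, hj]
    ring
  · intro hd
    apply h24
    have e : ∀ k a b j : ZMod 2, (k ^ 2 + a) ^ 2 - 3 * (b + k * (2 * j + 1)) = a + b := by decide
    have hd' := (ZMod.intCast_zmod_eq_zero_iff_dvd _ 2).2 (by exact_mod_cast hd)
    push_cast at hd'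
    have h' := e k W.a₂ W.a₄ j
    rw [hd'] at h'
    have : ((W.a₂ + W.a₄ : ℤ) : ZMod 2) = 0 := by push_cast; exact h'.symm
    exact_mod_cast (ZMod.intCast_zmod_eq_zero_iff_dvd _ 2).1 this
  · refine ⟨-2 * (k ^ 2 + W.a₂) ^ 3 + 9 * (k ^ 2 + W.a₂) * (W.a₄ + k * (2 * j + 1))
      - 27 * (j ^ 2 + j + W.a₆) - 7, by ring⟩

/-- The invariants of the new curve. -/
theorem exists_c {x y m : ℤ} (hx : ¬ (2 : ℤ) ∣ x) (hy : (4 : ℤ) ∣ y - 1) (hm : ¬ (2 : ℤ) ∣ m) :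
    ∃ A B D : ℤ, 2 ^ 40 * A = C4h (16 * x) (8 * y) (2 ^ 66) m ∧
      2 ^ 60 * B = C6h (16 * x) (8 * y) (2 ^ 66) m ∧
      2 ^ 24 * D = Dh (16 * x) (8 * y) (2 ^ 66) m ∧
      ¬ (2 : ℤ) ∣ A ∧ (4 : ℤ) ∣ B + 1 ∧ (2 : ℤ) ∣ D := by
  obtain ⟨i, hi⟩ := C4h_top (16 * x) (8 * y) (2 ^ 66) m
  obtain ⟨j, hj⟩ := C6h_top (16 * x) (8 * y) (2 ^ 66) m
  obtain ⟨k, hk⟩ := Dh_top (16 * x) (8 * y) (2 ^ 66) m
  rw [c4c20_two] at hi
  rw [c6c30_two] at hj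
  rw [dc12_two] at hk
  have hx1 : (x : ZMod 4) = 1 ∨ (x : ZMod 4) = 3 := by
    have : x % 4 = 1 ∨ x % 4 = 3 := by omega
    rcases this with h | h
    · left
      have := (ZMod.intCast_eq_intCast_iff_dvd_sub 1 x 4).2 (by push_cast; omega)
      simpa using this.symm
    · right
      have := (ZMod.intCast_eq_intCast_iff_dvd_sub 3 x 4).2 (by push_cast; omega)
      simpa using this.symm
  have hm1 : (m : ZMod 4) = 1 ∨ (m : ZMod 4) = 3 := by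
    have : m % 4 = 1 ∨ m % 4 = 3 := by omega
    rcases this with h | h
    · left
      have := (ZMod.intCast_eq_intCast_iff_dvd_sub 1 m 4).2 (by push_cast; omega)
      simpa using this.symm
    · right
      have := (ZMod.intCast_eq_intCast_iff_dvd_sub 3 m 4).2 (by push_cast; omega)
      simpa using this.symm
  have hy1 : (y : ZMod 4) = 1 := by
    have := (ZMod.intCast_eq_intCast_iff_dvd_sub 1 y 4).2 (by push_cast; omega)
    simpa using this.symm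
  have p1 : ∀ z : ZMod 4, z = 1 ∨ z = 3 → z ^ 2 = 1 := by decide
  have hx2 := p1 _ hx1
  have hm2 := p1 _ hm1
  refine ⟨(-11000 * x ^ 2 * y ^ 6 + 2128896 * x ^ 5 * y ^ 4 - 137325375 * x ^ 8 * y ^ 2
      + 2952450000 * x ^ 11) * m ^ 20 + 2 ^ 26 * i,
    (25000 * y ^ 11 - 8360000 * x ^ 3 * y ^ 9 + 1116155700 * x ^ 6 * y ^ 7
      - 74382704352 * x ^ 9 * y ^ 5 + 2474608269375 * x ^ 12 * y ^ 3
      - 32882911875000 * x ^ 15 * y) * m ^ 30 + 2 ^ 6 * j,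
    (25 * y ^ 4 - 3024 * x ^ 3 * y ^ 2 + 91125 * x ^ 6) * m ^ 12 + 2 ^ 42 * k, ?_, ?_, ?_, ?_, ?_,
    ?_⟩
  · linear_combination -hi
  · linear_combination -hj
  · linear_combination -hk
  · intro hd
    have hd4 : (4 : ℤ) ∣ 2 * ((-11000 * x ^ 2 * y ^ 6 + 2128896 * x ^ 5 * y ^ 4
      - 137325375 * x ^ 8 * y ^ 2 + 2952450000 * x ^ 11) * m ^ 20 + 2 ^ 26 * i) := by
      obtain ⟨c, hc⟩ := hd
      exact ⟨c, by rw [hc]; ring⟩
    have h := (ZMod.intCast_zmod_eq_zero_iff_dvd _ 4).2 (by exact_mod_cast hd4)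
    push_cast at h
    have e0 : (11000 : ZMod 4) = 0 := by decide
    have e1 : (2128896 : ZMod 4) = 0 := by decide
    have e2 : (2952450000 : ZMod 4) = 0 := by decide
    have e3 : (137325375 : ZMod 4) = 3 := by decide
    have e4 : (67108864 : ZMod 4) = 0 := by decide
    have ex : (x : ZMod 4) ^ 8 = 1 := by
      calc (x : ZMod 4) ^ 8 = ((x : ZMod 4) ^ 2) ^ 4 := by ring
        _ = 1 := by rw [hx2, one_pow]
    have em : (m : ZMod 4) ^ 20 = 1 := by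
      calc (m : ZMod 4) ^ 20 = ((m : ZMod 4) ^ 2) ^ 10 := by ring
        _ = 1 := by rw [hm2, one_pow]
    rw [e0, e1, e2, e3, e4, ex, em, hy1] at h
    ring_nf at h
    exact absurd h (by decide)
  · rw [← show ((4 : ℕ) : ℤ) = 4 from rfl, ← ZMod.intCast_zmod_eq_zero_iff_dvd]
    push_cast
    have e0 : (25000 : ZMod 4) = 0 := by decide
    have e1 : (8360000 : ZMod 4) = 0 := by decide
    have e2 : (1116155700 : ZMod 4) = 0 := by decide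
    have e3 : (74382704352 : ZMod 4) = 0 := by decide
    have e5 : (2474608269375 : ZMod 4) = 3 := by decide
    have e6 : (32882911875000 : ZMod 4) = 0 := by decide
    have e4 : (64 : ZMod 4) = 0 := by decide
    have ex : (x : ZMod 4) ^ 12 = 1 := by
      calc (x : ZMod 4) ^ 12 = ((x : ZMod 4) ^ 2) ^ 6 := by ring
        _ = 1 := by rw [hx2, one_pow]
    have em : (m : ZMod 4) ^ 30 = 1 := by
      calc (m : ZMod 4) ^ 30 = ((m : ZMod 4) ^ 2) ^ 15 := by ring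
        _ = 1 := by rw [hm2, one_pow]
    rw [e0, e1, e2, e3, e5, e6, e4, ex, em, hy1]
    ring_nf
    decide
  · have hd4 : (4 : ℤ) ∣ 2 * ((25 * y ^ 4 - 3024 * x ^ 3 * y ^ 2 + 91125 * x ^ 6) * m ^ 12
      + 2 ^ 42 * k) := by
      rw [← show ((4 : ℕ) : ℤ) = 4 from rfl, ← ZMod.intCast_zmod_eq_zero_iff_dvd]
      push_cast
      have e0 : (25 : ZMod 4) = 1 := by decide
      have e1 : (3024 : ZMod 4) = 0 := by decide
      have e2 : (91125 : ZMod 4) = 1 := by decide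
      have e4 : (4398046511104 : ZMod 4) = 0 := by decide
      have ex : (x : ZMod 4) ^ 6 = 1 := by
        calc (x : ZMod 4) ^ 6 = ((x : ZMod 4) ^ 2) ^ 3 := by ring
          _ = 1 := by rw [hx2, one_pow]
      have em : (m : ZMod 4) ^ 12 = 1 := by
        calc (m : ZMod 4) ^ 12 = ((m : ZMod 4) ^ 2) ^ 6 := by ring
          _ = 1 := by rw [hm2, one_pow]
      rw [e0, e1, e2, e4, ex, em, hy1]
      ring_nf
      decide
    omega

/-- An integral model with given `c₄, c₆`. -/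
theorem exists_model {A B g : ℤ} (hA : ¬ (2 : ℤ) ∣ A) (hB : (4 : ℤ) ∣ B + 1)
    (h : (64 : ℤ) ∣ A ^ 3 - B ^ 2) (hg2 : (64 : ℤ) ∣ g * A + B) (hg3 : (3 : ℤ) ∣ g ^ 2 - A)
    (hg27 : (27 : ℤ) ∣ g ^ 3 - 3 * g * A - 2 * B) :
    ∃ V : WeierstrassCurve ℤ, V.c₄ = A ∧ V.c₆ = B ∧ V.b₂ = g ∧ 24 * V.b₄ = g ^ 2 - A ∧
      432 * V.b₆ = g ^ 3 - 3 * g * A - 2 * B := by
  have hAodd : A % 2 = 1 := by omega
  have hc2 : IsCoprime (2 : ℤ) A := by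
    rw [Int.prime_two.coprime_iff_not_dvd]; exact hA
  have hc : IsCoprime (64 : ℤ) (A ^ 2) := by
    have : IsCoprime ((2 : ℤ) ^ 6) (A ^ 2) := hc2.pow
    simpa using this
  have h1 : (64 : ℤ) ∣ g ^ 2 - A := by
    apply hc.dvd_of_dvd_mul_left
    have e : A ^ 2 * (g ^ 2 - A) = (g * A + B) * (g * A - B) - (A ^ 3 - B ^ 2) := by ring
    rw [e]
    exact dvd_sub (hg2.mul_right _) h
  have h2 : (64 : ℤ) ∣ g ^ 3 - 3 * g * A - 2 * B := by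
    have e : g ^ 3 - 3 * g * A - 2 * B = g * (g ^ 2 - A) - 2 * (g * A + B) := by ring
    rw [e]
    exact dvd_sub (h1.mul_left _) (hg2.mul_left _)
  have hgodd : g % 2 = 1 := by
    by_contra hcon
    have : (2 : ℤ) ∣ g := by omega
    have h3 : (2 : ℤ) ∣ g ^ 2 - A := dvd_trans (by norm_num) h1
    have h4 : (2 : ℤ) ∣ g ^ 2 := dvd_pow this (by norm_num)
    omega
  -- `A = g ^ 2 = 1` modulo `8`
  have hA8 : (8 : ℤ) ∣ g ^ 2 - 1 := by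
    have : g % 8 = 1 ∨ g % 8 = 3 ∨ g % 8 = 5 ∨ g % 8 = 7 := by omega
    rw [Int.dvd_iff_emod_eq_zero, Int.sub_emod, pow_two, Int.mul_emod]
    rcases this with h | h | h | h <;> rw [h] <;> norm_num
  have hA8' : (8 : ℤ) ∣ A - 1 := by
    have h3 : (8 : ℤ) ∣ g ^ 2 - A := dvd_trans (by norm_num) h1
    omega
  have hg4 : (4 : ℤ) ∣ g - 1 := by
    obtain ⟨i, hi⟩ := hA8'
    have e : g * A + B = g + B + 8 * (g * i) := by
      have : A = 1 + 8 * i := by linarith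
      rw [this]; ring
    rw [e] at hg2
    have : (4 : ℤ) ∣ g + B + 8 * (g * i) := dvd_trans (by norm_num) hg2
    omega
  obtain ⟨k, hk⟩ := hg4
  obtain ⟨j, hj⟩ : (48 : ℤ) ∣ g ^ 2 - A := by
    have h3 : (16 : ℤ) ∣ g ^ 2 - A := dvd_trans (by norm_num) h1
    omega
  obtain ⟨i, hi⟩ : (1728 : ℤ) ∣ g ^ 3 - 3 * g * A - 2 * B := by
    have hc : IsCoprime (64 : ℤ) 27 := by norm_num
    have := hc.mul_dvd h2 hg27
    simpa using this
  refine ⟨⟨1, k, 0, j, i⟩, ?_, ?_, ?_, ?_, ?_⟩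
  · simp only [WeierstrassCurve.c₄, WeierstrassCurve.b₂, WeierstrassCurve.b₄]
    have : g = 1 + 4 * k := by linarith
    rw [this] at hj
    linear_combination hj
  · simp only [WeierstrassCurve.c₆, WeierstrassCurve.b₂, WeierstrassCurve.b₄,
      WeierstrassCurve.b₆]
    have hg : g = 1 + 4 * k := by linarith
    rw [hg] at hj hi
    have : (2 : ℤ) * (-(1 ^ 2 + 4 * k) ^ 3 + 36 * (1 ^ 2 + 4 * k) * (2 * j + 1 * 0)
        - 216 * (0 ^ 2 + 4 * i)) = 2 * B := by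
      linear_combination (-3 * (1 + 4 * k)) * hj + hi
    exact mul_left_cancel₀ two_ne_zero this
  · simp only [WeierstrassCurve.b₂]
    linarith
  · simp only [WeierstrassCurve.b₄]
    linear_combination -hj
  · simp only [WeierstrassCurve.b₆]
    linear_combination -hi

/-- **Existence of the new curve.** -/
theorem exists_switch_two {W : WeierstrassCurve ℤ} (hSS : SS W) {m : ℤ} (hm : ¬ (2 : ℤ) ∣ m)
    (h81 : (81 : ℤ) ∣ m) :
    ∃ V : WeierstrassCurve ℤ, 2 ^ 40 * V.c₄ = C4h W.c₄ W.c₆ (2 ^ 66) m ∧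
      2 ^ 60 * V.c₆ = C6h W.c₄ W.c₆ (2 ^ 66) m ∧
      2 ^ 120 * V.Δ = W.Δ * Dh W.c₄ W.c₆ (2 ^ 66) m ^ 5 ∧
      ¬ (2 : ℤ) ∣ V.c₄ ∧ (2 : ℤ) ∣ V.Δ ∧
      (3 : ℤ) ∣ V.b₂ - W.b₂ ∧ (3 : ℤ) ∣ V.b₄ - W.b₄ ∧ (3 : ℤ) ∣ V.b₆ - W.b₆ := by
  obtain ⟨x, y, hx, hy, hx', hy'⟩ := hSS.c
  obtain ⟨A, B, D, hA, hB, hD, hA2, hB2, hD2⟩ := exists_c hx' hy' hm
  rw [← hx, ← hy] at hA hB hD
  set a := W.c₄ with ha
  set b := W.c₆ with hb
  have hrel : A ^ 3 - B ^ 2 = (a ^ 3 - b ^ 2) * D ^ 5 := by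
    have h := syzygyh a b (2 ^ 66) m (by norm_num)
    rw [← hA, ← hB, ← hD] at h
    have : (2 : ℤ) ^ 120 * (A ^ 3 - B ^ 2) = 2 ^ 120 * ((a ^ 3 - b ^ 2) * D ^ 5) := by
      linear_combination h
    exact mul_left_cancel₀ (by norm_num) this
  have hW := W.c_relation
  -- congruences modulo `81`
  set v : ℤ := (2 ^ 64) ^ 10 with hv
  have hc81 : IsCoprime (81 : ℤ) (2 ^ 60) := by
    have : IsCoprime ((3 : ℤ) ^ 4) (2 ^ 60) := IsCoprime.pow (by norm_num)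
    simpa using this
  have hc81' : IsCoprime (81 : ℤ) (2 ^ 40) := by
    have : IsCoprime ((3 : ℤ) ^ 4) (2 ^ 40) := IsCoprime.pow (by norm_num)
    simpa using this
  have hA81 : (81 : ℤ) ∣ A - v ^ 2 * a := by
    apply hc81'.dvd_of_dvd_mul_left
    have h := h81.trans (C4h_bot a b (2 ^ 66) m)
    rw [← hA] at h
    have e : (2 : ℤ) ^ 40 * (A - v ^ 2 * a) = 2 ^ 40 * A - a * (2 ^ 66) ^ 20 := by
      rw [hv]; ring
    rw [e]; exact h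
  have hB81 : (81 : ℤ) ∣ B - v ^ 3 * b := by
    apply hc81.dvd_of_dvd_mul_left
    have h := h81.trans (C6h_bot a b (2 ^ 66) m)
    rw [← hB] at h
    have e : (2 : ℤ) ^ 60 * (B - v ^ 3 * b) = 2 ^ 60 * B - b * (2 ^ 66) ^ 30 := by
      rw [hv]; ring
    rw [e]; exact h
  -- choice of `b₂`
  have hc2 : IsCoprime (2 : ℤ) A := by
    rw [Int.prime_two.coprime_iff_not_dvd]; exact hA2
  have hcA : IsCoprime (64 : ℤ) A := by
    have : IsCoprime ((2 : ℤ) ^ 6) A := hc2.pow_left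
    simpa using this
  obtain ⟨p, q, hpq⟩ := hcA
  set g : ℤ := -1215 * (-B * q) + 1216 * (v * W.b₂) with hg
  have hg64 : (64 : ℤ) ∣ g * A + B :=
    ⟨19 * B * q * A + 19 * v * W.b₂ * A + B * p, by
      rw [hg]
      linear_combination -B * hpq⟩
  have hg81 : (81 : ℤ) ∣ g - v * W.b₂ :=
    ⟨15 * (B * q) + 15 * (v * W.b₂), by rw [hg]; ring⟩
  obtain ⟨g', hg'⟩ := hg81
  obtain ⟨A', hA'⟩ := hA81
  obtain ⟨B', hB'⟩ := hB81
  have e4 : a = W.b₂ ^ 2 - 24 * W.b₄ := rfl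
  have e6 : b = -W.b₂ ^ 3 + 36 * W.b₂ * W.b₄ - 216 * W.b₆ := rfl
  have eg : g = v * W.b₂ + 81 * g' := by linarith
  have eA : A = v ^ 2 * a + 81 * A' := by linarith
  have eB : B = v ^ 3 * b + 81 * B' := by linarith
  have k2 : ∃ c, g ^ 2 - A = v ^ 2 * (24 * W.b₄) + 81 * c :=
    ⟨2 * v * W.b₂ * g' + 81 * g' ^ 2 - A', by rw [eg, eA, e4]; ring⟩
  have k3 : ∃ c, g ^ 3 - 3 * g * A - 2 * B = v ^ 3 * (432 * W.b₆) + 81 * c := by
    refine ⟨3 * (v * W.b₂) ^ 2 * g' + 3 * (v * W.b₂) * 81 * g' ^ 2 + 81 ^ 2 * g' ^ 3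
      - 3 * (v * W.b₂) * A' - 3 * g' * (v ^ 2 * a + 81 * A') - 2 * B', ?_⟩
    rw [eg, eA, eB, e4, e6]; ring
  obtain ⟨c2, hc2⟩ := k2
  obtain ⟨c3, hc3⟩ := k3
  have h64 : (64 : ℤ) ∣ A ^ 3 - B ^ 2 := by
    rw [hrel, ← hW]
    exact ⟨27 * W.Δ * D ^ 5, by ring⟩
  obtain ⟨V, hV4, hV6, hVb2, hVb4, hVb6⟩ := exists_model hA2 hB2 h64 hg64
    ⟨8 * v ^ 2 * W.b₄ + 27 * c2, by rw [hc2]; ring⟩
    ⟨16 * v ^ 3 * W.b₆ + 3 * c3, by rw [hc3]; ring⟩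
  have hv3 : (3 : ℤ) ∣ v - 1 := by
    rw [hv]
    have := sub_dvd_pow_sub_pow ((2 : ℤ) ^ 64) 1 10
    rw [one_pow] at this
    exact dvd_trans (by norm_num) this
  obtain ⟨v', hv'⟩ := hv3
  have ev : v = 1 + 3 * v' := by linarith
  have hVΔ : V.Δ = W.Δ * D ^ 5 := by
    have h := V.c_relation
    rw [hV4, hV6, hrel, ← hW] at h
    have : (1728 : ℤ) * V.Δ = 1728 * (W.Δ * D ^ 5) := by rw [h]; ring
    exact mul_left_cancel₀ (by norm_num) this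
  refine ⟨V, by rw [hV4]; exact hA, by rw [hV6]; exact hB, ?_, by rwa [hV4], ?_, ?_, ?_, ?_⟩
  · rw [hVΔ, ← hD]; ring
  · rw [hVΔ]
    exact Dvd.dvd.mul_left (dvd_pow hD2 (by norm_num)) _
  · rw [hVb2, eg, ev]
    exact ⟨v' * W.b₂ + 27 * g', by ring⟩
  · have h1 : 24 * V.b₄ = v ^ 2 * (24 * W.b₄) + 81 * c2 := by rw [hVb4, hc2]
    have h2 : 8 * V.b₄ = 8 * (v ^ 2 * W.b₄) + 27 * c2 := by linarith
    have h3 : (8 : ℤ) * (V.b₄ - W.b₄) = 3 * (8 * (2 * v' + 3 * v' ^ 2) * W.b₄ + 9 * c2) := by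
      rw [mul_sub, h2, ev]; ring
    have hc : IsCoprime (3 : ℤ) 8 := by norm_num
    exact hc.dvd_of_dvd_mul_left ⟨_, h3⟩
  · have h1 : 432 * V.b₆ = v ^ 3 * (432 * W.b₆) + 81 * c3 := by rw [hVb6, hc3]
    have h2 : 16 * V.b₆ = 16 * (v ^ 3 * W.b₆) + 3 * c3 := by linarith
    have h3 : (16 : ℤ) * (V.b₆ - W.b₆) =
        3 * (16 * (3 * v' + 9 * v' ^ 2 + 9 * v' ^ 3) * W.b₆ + c3) := by
      rw [mul_sub, h2, ev]; ring
    have hc : IsCoprime (3 : ℤ) 16 := by norm_num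
    exact hc.dvd_of_dvd_mul_left ⟨_, h3⟩

end Fermat.Agent.LTF.Chain
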