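import Mathlib
import Fermat.Agent.LTF.Local3
import Fermat.Agent.LTF.Chain.Two

/-!
# The `3`-switch at `2` for curves with good reduction at `2`
-/

set_option autoImplicit false

namespace Fermat.Agent.LTF.Chain

open WeierstrassCurve

/-- number of affine points over `𝔽₂` -/
def cnt2 (V : WeierstrassCurve (ZMod 2)) : ℕ :=
  (Finset.univ.filter fun p : ZMod 2 × ZMod 2 =>
    p.2 ^ 2 + V.a₁ * p.1 * p.2 + V.a₃ * p.2 = p.1 ^ 3 + V.a₂ * p.1 ^ 2 + V.a₄ * p.1 + V.a₆).card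

/-- the points of `V` as an option type -/
def pointEquiv {F : Type*} [Field F] (V : WeierstrassCurve F) :
    V.toAffine.Point ≃ Option {p : F × F // V.toAffine.Nonsingular p.1 p.2} where
  toFun P := match P with
    | .zero => none
    | .some x y h => some ⟨(x, y), h⟩
  invFun o := match o with
    | none => .zero
    | some p => .some p.1.1 p.1.2 p.2
  left_inv P := by cases P <;> rfl
  right_inv o := by rcases o with _ | ⟨⟨x, y⟩, h⟩ <;> rfl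

theorem card_eq_cnt2 (V : WeierstrassCurve (ZMod 2)) (hV : V.Δ ≠ 0) : V.card = 1 + cnt2 V := by
  classical
  unfold WeierstrassCurve.card
  rw [Nat.card_congr (pointEquiv V), Finite.card_option, add_comm]
  congr 1
  rw [Nat.card_eq_fintype_card, Fintype.card_subtype, cnt2]
  congr 1
  ext p
  simp only [Finset.mem_filter, Finset.mem_univ, true_and]
  rw [← WeierstrassCurve.Affine.equation_iff_nonsingular_of_Δ_ne_zero hV,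
    WeierstrassCurve.Affine.equation_iff]

theorem trace_eq_cnt2 (V : WeierstrassCurve (ZMod 2)) (hV : V.Δ ≠ 0) :
    V.traceOfFrobenius = 2 - cnt2 V := by
  unfold WeierstrassCurve.traceOfFrobenius
  rw [card_eq_cnt2 V hV]
  simp
  ring

theorem table_congr : ∀ a1 a2 a3 a4 a6 s t : ZMod 2, ¬ (s = 0 ∧ t = 0) →
    (⟨a1, a2, a3, a4, a6⟩ : WeierstrassCurve (ZMod 2)).Δ ≠ 0 →
    (fam3 (⟨a1, a2, a3, a4, a6⟩ : WeierstrassCurve (ZMod 2)) s t).Δ ≠ 0 →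
    (cnt2 (fam3 (⟨a1, a2, a3, a4, a6⟩ : WeierstrassCurve (ZMod 2)) s t)) % 3 =
      (cnt2 (⟨a1, a2, a3, a4, a6⟩ : WeierstrassCurve (ZMod 2))) % 3 := by
  decide +kernel

theorem table_ss : ∀ a1 a2 a3 a4 a6 : ZMod 2,
    (⟨a1, a2, a3, a4, a6⟩ : WeierstrassCurve (ZMod 2)).Δ ≠ 0 →
    ¬ (a1 = 0 ∧ a3 ≠ 0 ∧ a2 + a4 = 0) →
    ((fam3 (⟨a1, a2, a3, a4, a6⟩ : WeierstrassCurve (ZMod 2)) 1 0).a₁ = 0 ∧
      (fam3 (⟨a1, a2, a3, a4, a6⟩ : WeierstrassCurve (ZMod 2)) 1 0).a₃ ≠ 0 ∧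
      (fam3 (⟨a1, a2, a3, a4, a6⟩ : WeierstrassCurve (ZMod 2)) 1 0).a₂ +
        (fam3 (⟨a1, a2, a3, a4, a6⟩ : WeierstrassCurve (ZMod 2)) 1 0).a₄ ≠ 0) ∨
    ((fam3 (⟨a1, a2, a3, a4, a6⟩ : WeierstrassCurve (ZMod 2)) 1 1).a₁ = 0 ∧
      (fam3 (⟨a1, a2, a3, a4, a6⟩ : WeierstrassCurve (ZMod 2)) 1 1).a₃ ≠ 0 ∧
      (fam3 (⟨a1, a2, a3, a4, a6⟩ : WeierstrassCurve (ZMod 2)) 1 1).a₂ +
        (fam3 (⟨a1, a2, a3, a4, a6⟩ : WeierstrassCurve (ZMod 2)) 1 1).a₄ ≠ 0) ∨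
    ((fam3 (⟨a1, a2, a3, a4, a6⟩ : WeierstrassCurve (ZMod 2)) 0 1).a₁ = 0 ∧
      (fam3 (⟨a1, a2, a3, a4, a6⟩ : WeierstrassCurve (ZMod 2)) 0 1).a₃ ≠ 0 ∧
      (fam3 (⟨a1, a2, a3, a4, a6⟩ : WeierstrassCurve (ZMod 2)) 0 1).a₂ +
        (fam3 (⟨a1, a2, a3, a4, a6⟩ : WeierstrassCurve (ZMod 2)) 0 1).a₄ ≠ 0) := by
  decide +kernel


/-- the reduction at `2` -/
theorem red_eta (W : WeierstrassCurve ℤ) : W.map (Int.castRingHom (ZMod 2)) =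
    (⟨(W.a₁ : ZMod 2), W.a₂, W.a₃, W.a₄, W.a₆⟩ : WeierstrassCurve (ZMod 2)) := rfl

theorem cast_zero_iff (a : ℤ) : ((a : ℤ) : ZMod 2) = 0 ↔ (2 : ℤ) ∣ a := by
  have := ZMod.intCast_zmod_eq_zero_iff_dvd a 2
  exact_mod_cast this

/-- `SS` in terms of the reduction. -/
theorem SS_iff (W : WeierstrassCurve ℤ) : SS W ↔
    (W.map (Int.castRingHom (ZMod 2))).a₁ = 0 ∧ (W.map (Int.castRingHom (ZMod 2))).a₃ ≠ 0 ∧
      (W.map (Int.castRingHom (ZMod 2))).a₂ + (W.map (Int.castRingHom (ZMod 2))).a₄ ≠ 0 := by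
  rw [SS, ← cast_zero_iff, ← cast_zero_iff, ← cast_zero_iff]
  simp

/-- **A supersingular member with `a₂ = ±2` in the 3-family.** -/
theorem exists_SS_class (W : WeierstrassCurve ℤ) (hΔ : ¬ (2 : ℤ) ∣ W.Δ)
    (h : ¬ ((2 : ℤ) ∣ W.a₁ ∧ ¬ (2 : ℤ) ∣ W.a₃ ∧ (2 : ℤ) ∣ W.a₂ + W.a₄)) :
    ∃ s0 t0 : ℤ, ((s0 = 1 ∧ t0 = 0) ∨ (s0 = 1 ∧ t0 = 1) ∨ (s0 = 0 ∧ t0 = 1)) ∧
      ∀ s t : ℤ, (2 : ℤ) ∣ s - s0 → (2 : ℤ) ∣ t - t0 → SS (fam3 W s t) := by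
  have hΔ' : (W.map (Int.castRingHom (ZMod 2))).Δ ≠ 0 := by
    rw [WeierstrassCurve.map_Δ]
    exact fun h => hΔ ((cast_zero_iff _).1 h)
  have h' : ¬ ((W.a₁ : ZMod 2) = 0 ∧ (W.a₃ : ZMod 2) ≠ 0 ∧ (W.a₂ : ZMod 2) + W.a₄ = 0) := by
    rw [Ne, cast_zero_iff, cast_zero_iff, ← Int.cast_add, cast_zero_iff]
    exact h
  have key : ∀ s0 t0 : ℤ, ((fam3 (W.map (Int.castRingHom (ZMod 2))) (s0 : ZMod 2) t0).a₁ = 0 ∧
      (fam3 (W.map (Int.castRingHom (ZMod 2))) (s0 : ZMod 2) t0).a₃ ≠ 0 ∧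
      (fam3 (W.map (Int.castRingHom (ZMod 2))) (s0 : ZMod 2) t0).a₂ +
        (fam3 (W.map (Int.castRingHom (ZMod 2))) (s0 : ZMod 2) t0).a₄ ≠ 0) →
      ∀ s t : ℤ, (2 : ℤ) ∣ s - s0 → (2 : ℤ) ∣ t - t0 → SS (fam3 W s t) := by
    intro s0 t0 h0 s t hs ht
    have es : (s : ZMod 2) = s0 := by
      have := (cast_zero_iff _).2 hs
      push_cast at this
      exact sub_eq_zero.1 this
    have et : (t : ZMod 2) = t0 := by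
      have := (cast_zero_iff _).2 ht
      push_cast at this
      exact sub_eq_zero.1 this
    rw [SS_iff, map_fam3]
    change (fam3 (W.map (Int.castRingHom (ZMod 2))) (s : ZMod 2) (t : ZMod 2)).a₁ = 0 ∧
      (fam3 (W.map (Int.castRingHom (ZMod 2))) (s : ZMod 2) (t : ZMod 2)).a₃ ≠ 0 ∧
      (fam3 (W.map (Int.castRingHom (ZMod 2))) (s : ZMod 2) (t : ZMod 2)).a₂ +
        (fam3 (W.map (Int.castRingHom (ZMod 2))) (s : ZMod 2) (t : ZMod 2)).a₄ ≠ 0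
    rw [es, et]
    exact h0
  rcases table_ss (W.a₁ : ZMod 2) W.a₂ W.a₃ W.a₄ W.a₆ hΔ' h' with h1 | h1 | h1
  · exact ⟨1, 0, Or.inl ⟨rfl, rfl⟩, key 1 0 (by rw [red_eta]; simpa using h1)⟩
  · exact ⟨1, 1, Or.inr (Or.inl ⟨rfl, rfl⟩), key 1 1 (by rw [red_eta]; simpa using h1)⟩
  · exact ⟨0, 1, Or.inr (Or.inr ⟨rfl, rfl⟩), key 0 1 (by rw [red_eta]; simpa using h1)⟩

/-- **The congruence at `2`.** -/
theorem apOfModel_two_congr (W : WeierstrassCurve ℤ) (s t : ℤ)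
    (hst : ¬ ((2 : ℤ) ∣ s ∧ (2 : ℤ) ∣ t)) (hΔ : ¬ (2 : ℤ) ∣ W.Δ)
    (hΔ' : ¬ (2 : ℤ) ∣ (fam3 W s t).Δ) :
    (3 : ℤ) ∣ (fam3 W s t).apOfModel 2 - W.apOfModel 2 := by
  have h1 : (W.map (Int.castRingHom (ZMod 2))).Δ ≠ 0 := by
    rw [WeierstrassCurve.map_Δ]
    exact fun h => hΔ ((cast_zero_iff _).1 h)
  have h2 : ((fam3 W s t).map (Int.castRingHom (ZMod 2))).Δ ≠ 0 := by
    rw [WeierstrassCurve.map_Δ]
    exact fun h => hΔ' ((cast_zero_iff _).1 h)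
  have h3 : ¬ ((s : ZMod 2) = 0 ∧ (t : ZMod 2) = 0) := by
    rw [cast_zero_iff, cast_zero_iff]
    exact hst
  have e : (fam3 W s t).map (Int.castRingHom (ZMod 2)) =
      fam3 (W.map (Int.castRingHom (ZMod 2))) (s : ZMod 2) (t : ZMod 2) := map_fam3 _ _ _ _
  unfold WeierstrassCurve.apOfModel WeierstrassCurve.reductionMod
  rw [trace_eq_cnt2 _ h1, trace_eq_cnt2 _ h2]
  rw [e] at h2 ⊢
  have h := table_congr (W.a₁ : ZMod 2) W.a₂ W.a₃ W.a₄ W.a₆ s t h3 h1 h2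
  rw [← red_eta] at h
  omega

end Fermat.Agent.LTF.Chain
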