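import Mathlib
import Fermat.Agent.S51_Galois
import Fermat.Agent.Switch.Core
import Fermat.Prelude.Def_FLTPrelim_ModularRep

/-!
# A criterion for irreducibility modulo `5`
-/

set_option autoImplicit false

namespace Fermat.Agent.LTF.Chain

open WeierstrassCurve

/-- Parametrisation of semistable curves with a rational line of order `5`. -/
theorem param_five (W : WeierstrassCurve ℤ) (hΔ : W.Δ ≠ 0) (hcon : ¬ W.ModRepIsIrreducible 5) :
    ∃ Z h X : ℚ, Z ≠ 0 ∧ X ^ 2 = Z * (h ^ 2 + 22 * h + 125) ∧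
      (W.c₄ : ℚ) = Z * (h ^ 2 + 10 * h + 5) ∧ (W.c₆ : ℚ) = -X * Z * (h ^ 2 + 4 * h - 1) ∧
      (W.Δ : ℚ) = Z ^ 3 * h := by
  have hΔQ : (W.map (Int.castRingHom ℚ)).Δ ≠ 0 := by
    rw [WeierstrassCurve.map_Δ]
    simpa using hΔ
  have fixed_rational : ∀ x : AlgebraicClosure ℚ,
      (∀ σ : AlgebraicClosure ℚ ≃ₐ[ℚ] AlgebraicClosure ℚ, σ x = x) →
      ∃ q : ℚ, algebraMap ℚ (AlgebraicClosure ℚ) q = x := by
    intro x hx
    have : Algebra.IsAlgebraic ℚ (AlgebraicClosure ℚ) := AlgebraicClosure.isAlgebraic ℚ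
    have : IsAlgClosure ℚ (AlgebraicClosure ℚ) := ⟨AlgebraicClosure.isAlgClosed ℚ, this⟩
    have : IsGalois ℚ (AlgebraicClosure ℚ) := IsAlgClosure.isGalois ℚ _
    have h := (InfiniteGalois.mem_bot_iff_fixed (k := ℚ) (K := AlgebraicClosure ℚ) x).mpr hx
    rwa [IntermediateField.mem_bot] at h
  obtain ⟨S, T, hD, hA, hB⟩ := S51gal.five (K := AlgebraicClosure ℚ)
    (W := W.map (Int.castRingHom ℚ)) hΔQ fixed_rational hcon
  set V := W.map (Int.castRingHom ℚ) with hV
  have hc4 : V.c₄ = (W.c₄ : ℚ) := by rw [hV, WeierstrassCurve.map_c₄]; rfl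
  have hc6 : V.c₆ = (W.c₆ : ℚ) := by rw [hV, WeierstrassCurve.map_c₆]; rfl
  have hΔV : V.Δ = (W.Δ : ℚ) := by rw [hV, WeierstrassCurve.map_Δ]; rfl
  rw [← hc4, ← hc6, ← hΔV]
  simp only [S51tor.relA, S51tor.relB] at hA hB
  set Z : ℚ := S ^ 2 - 4 * T with hZ
  set X : ℚ := 6 * S + V.b₂ with hX
  set Y : ℚ := 4 * S ^ 2 + S * V.b₂ - 4 * T + 2 * V.b₄ with hY
  have e1 : V.c₆ = -X * (X ^ 2 - 18 * Y + 72 * Z) := by
    simp only [hX, hY, hZ, WeierstrassCurve.c₆]
    linear_combination 216 * hA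
  have e2 : Y ^ 2 = Z * (X ^ 2 - 4 * Z) := by
    simp only [hX, hY, hZ]
    linear_combination 16 * hB - 4 * V.b₂ * hA + 4 * V.b_relation
  have e3 : V.c₄ = X ^ 2 + 12 * Z - 12 * Y := by
    simp only [hX, hY, hZ, WeierstrassCurve.c₄]
    ring
  have e4 : Y / Z * Z = Y := div_mul_cancel₀ _ hD
  refine ⟨Z, Y / Z - 11, X, hD, ?_, ?_, ?_, ?_⟩
  · have : Z * (X ^ 2 - Z * ((Y / Z - 11) ^ 2 + 22 * (Y / Z - 11) + 125)) = 0 := by
      linear_combination (-1) * e2 - (Y / Z * Z + Y) * e4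
    have := (mul_eq_zero.1 this).resolve_left hD
    linarith
  · rw [e3]
    have : Z * (X ^ 2 + 12 * Z - 12 * Y - Z * ((Y / Z - 11) ^ 2 + 10 * (Y / Z - 11) + 5)) = 0 := by
      linear_combination (-1) * e2 - (Y / Z * Z + Y) * e4 + 12 * Z * e4
    have := (mul_eq_zero.1 this).resolve_left hD
    linarith
  · rw [e1]
    have : Z * (-X * (X ^ 2 - 18 * Y + 72 * Z) -
        -X * Z * ((Y / Z - 11) ^ 2 + 4 * (Y / Z - 11) - 1)) = 0 := by
      linear_combination X * e2 + X * (Y / Z * Z + Y) * e4 - 18 * Z * X * e4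
    have := (mul_eq_zero.1 this).resolve_left hD
    linarith
  · have h := V.c_relation
    rw [e1, e3] at h
    have : 1728 * V.Δ = 1728 * (Z ^ 3 * (Y / Z - 11)) := by
      rw [h]
      linear_combination (-1728 * Z ^ 2) * e4 + (108 * X ^ 2 - 1728 * Y + 5184 * Z) * e2
    exact mul_left_cancel₀ (by norm_num) this

/-! ### local analysis -/

section Norm
variable {p : ℕ} [hp : Fact p.Prime]

theorem norm_poly_gt {h : ℚ} (hh : 1 < padicNorm p h) :
    padicNorm p (h ^ 2 + 10 * h + 5) = padicNorm p h ^ 2 := by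
  have h10 : padicNorm p 10 ≤ 1 := by simpa using padicNorm.of_int (p := p) 10
  have h5 : padicNorm p 5 ≤ 1 := by simpa using padicNorm.of_int (p := p) 5
  have e1 : padicNorm p (h ^ 2) = padicNorm p h ^ 2 := by
    rw [pow_two, pow_two, padicNorm.mul]
  have e2 : padicNorm p (10 * h + 5) ≤ padicNorm p h := by
    refine (padicNorm.nonarchimedean).trans (max_le ?_ (h5.trans hh.le))
    rw [padicNorm.mul]
    exact mul_le_of_le_one_left (padicNorm.nonneg _) h10
  have e3 : padicNorm p (10 * h + 5) < padicNorm p (h ^ 2) := by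
    rw [e1]; nlinarith
  rw [add_assoc, padicNorm.add_eq_max_of_ne e3.ne', max_eq_left e3.le, e1]

theorem norm_poly_le {h : ℚ} (hh : padicNorm p h ≤ 1) :
    padicNorm p (h ^ 2 + 10 * h + 5) ≤ 1 := by
  have h10 : padicNorm p 10 ≤ 1 := by simpa using padicNorm.of_int (p := p) 10
  have h5 : padicNorm p 5 ≤ 1 := by simpa using padicNorm.of_int (p := p) 5
  refine (padicNorm.nonarchimedean).trans (max_le ?_ h5)
  refine (padicNorm.nonarchimedean).trans (max_le ?_ ?_)
  · rw [pow_two, padicNorm.mul]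
    exact mul_le_one₀ hh (padicNorm.nonneg _) hh
  · rw [padicNorm.mul]
    exact mul_le_one₀ h10 (padicNorm.nonneg _) hh

theorem norm_poly_lt (hp5 : p ≠ 5) {h : ℚ} (hh : padicNorm p h < 1) :
    padicNorm p (h ^ 2 + 10 * h + 5) = 1 := by
  have h10 : padicNorm p 10 ≤ 1 := by simpa using padicNorm.of_int (p := p) 10
  have h5 : padicNorm p 5 = 1 := by
    have := (padicNorm.int_eq_one_iff (p := p) 5).2 (by
      intro hd
      have : p ∣ 5 := by exact_mod_cast hd
      exact hp5 ((Nat.prime_dvd_prime_iff_eq hp.out Nat.prime_five).1 this))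
    simpa using this
  have e : padicNorm p (h ^ 2 + 10 * h) < 1 := by
    refine lt_of_le_of_lt padicNorm.nonarchimedean (max_lt ?_ ?_)
    · rw [pow_two, padicNorm.mul]
      nlinarith [padicNorm.nonneg (p := p) h]
    · rw [padicNorm.mul]
      nlinarith [padicNorm.nonneg (p := p) h, padicNorm.nonneg (p := p) 10]
  rw [padicNorm.add_eq_max_of_ne (by rw [h5]; exact e.ne), h5, max_eq_right e.le]

theorem norm_le_inv_of_lt {q : ℚ} (hq : padicNorm p q < 1) : padicNorm p q ≤ (p : ℚ)⁻¹ := by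
  by_cases h0 : q = 0
  · rw [h0, padicNorm.zero]; positivity
  obtain ⟨z, hz⟩ := padicNorm.values_discrete (p := p) h0
  rw [hz] at hq ⊢
  have hp1 : (1 : ℚ) < p := by exact_mod_cast hp.out.one_lt
  have hz' : -z < 0 := by
    by_contra hcon
    exact absurd hq (not_lt.2 (one_le_zpow₀ hp1.le (not_lt.1 hcon)))
  rw [← zpow_neg_one]
  exact zpow_le_zpow_right₀ hp1.le (by omega)

/-- The dichotomy away from `5`. -/
theorem dichotomy (hp5 : p ≠ 5) {c D : ℤ} {Z h : ℚ} (hc : (c : ℚ) = Z * (h ^ 2 + 10 * h + 5))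
    (hD : (D : ℚ) = Z ^ 3 * h) (hss : (p : ℤ) ∣ D → ¬ (p : ℤ) ∣ c) (hZ : Z ≠ 0) :
    (1 < padicNorm p h ∧ padicNorm p Z * padicNorm p h ^ 2 = 1) ∨
      (padicNorm p h ≤ 1 ∧ padicNorm p Z = 1) := by
  have hz : 0 < padicNorm p Z := lt_of_le_of_ne (padicNorm.nonneg _)
    (fun h0 => hZ (padicNorm.zero_of_padicNorm_eq_zero h0.symm))
  have hη := padicNorm.nonneg (p := p) h
  have hc' := congrArg (padicNorm p) hc
  have hD' := congrArg (padicNorm p) hD
  rw [padicNorm.mul] at hc'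
  rw [padicNorm.mul, show Z ^ 3 = Z * Z * Z by ring, padicNorm.mul, padicNorm.mul] at hD'
  have hc1 : padicNorm p (c : ℚ) ≤ 1 := padicNorm.of_int c
  have hD1 : padicNorm p (D : ℚ) ≤ 1 := padicNorm.of_int D
  have hss' : padicNorm p (D : ℚ) < 1 → padicNorm p (c : ℚ) = 1 := by
    intro h1
    exact (padicNorm.int_eq_one_iff c).2 (hss ((padicNorm.int_lt_one_iff D).1 h1))
  rcases lt_trichotomy 1 (padicNorm p h) with h1 | h1 | h1
  · left
    refine ⟨h1, ?_⟩
    rw [norm_poly_gt h1] at hc'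
    rw [← hc']
    apply hss'
    rw [hD']
    rw [hc'] at hc1
    generalize padicNorm p Z = z at *
    generalize padicNorm p h = y at *
    have hzy : z * y ≤ 1 := by nlinarith
    have hz1 : z < 1 := by nlinarith
    nlinarith [mul_pos hz hz]
  · right
    refine ⟨h1.symm.le, ?_⟩
    have h2 := norm_poly_le (p := p) h1.symm.le
    by_contra hne
    rw [← h1, mul_one] at hD'
    generalize padicNorm p Z = z at *
    have hz1 : z < 1 := by
      refine lt_of_le_of_ne ?_ hne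
      by_contra hcon
      rw [not_le] at hcon
      have : 1 < z * z := by nlinarith
      nlinarith
    have h3 := hss' (by rw [hD']; nlinarith [mul_pos hz hz])
    rw [h3] at hc'
    nlinarith
  · right
    refine ⟨h1.le, ?_⟩
    rw [norm_poly_lt hp5 h1, mul_one] at hc'
    rw [← hc']
    apply hss'
    rw [hD']
    rw [hc'] at hc1
    generalize padicNorm p Z = z at *
    generalize padicNorm p h = y at *
    have : z * z ≤ 1 := by nlinarith
    have : z * z * z ≤ 1 := by nlinarith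
    nlinarith [mul_pos (mul_pos hz hz) hz]

end Norm

/-- The dichotomy at `5`. -/
theorem dichotomy_five {c D : ℤ} {Z h : ℚ} (hc : (c : ℚ) = Z * (h ^ 2 + 10 * h + 5))
    (hD : (D : ℚ) = Z ^ 3 * h) (hss : (5 : ℤ) ∣ D → ¬ (5 : ℤ) ∣ c) (hZ : Z ≠ 0) :
    (1 < padicNorm 5 h ∧ padicNorm 5 Z * padicNorm 5 h ^ 2 = 1) ∨
      (padicNorm 5 h = 1 ∧ padicNorm 5 Z = 1) ∨
      (padicNorm 5 h ≤ (1 / 125 : ℚ) ∧ padicNorm 5 Z = 5) := by
  have : Fact (Nat.Prime 5) := ⟨Nat.prime_five⟩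
  have hz : 0 < padicNorm 5 Z := lt_of_le_of_ne (padicNorm.nonneg _)
    (fun h0 => hZ (padicNorm.zero_of_padicNorm_eq_zero h0.symm))
  have hη := padicNorm.nonneg (p := 5) h
  have hc' := congrArg (padicNorm 5) hc
  have hD' := congrArg (padicNorm 5) hD
  rw [padicNorm.mul] at hc'
  rw [padicNorm.mul, show Z ^ 3 = Z * Z * Z by ring, padicNorm.mul, padicNorm.mul] at hD'
  have hc1 : padicNorm 5 (c : ℚ) ≤ 1 := padicNorm.of_int c
  have hD1 : padicNorm 5 (D : ℚ) ≤ 1 := padicNorm.of_int D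
  have hss' : padicNorm 5 (D : ℚ) < 1 → padicNorm 5 (c : ℚ) = 1 := by
    intro h1
    refine (padicNorm.int_eq_one_iff c).2 ?_
    have := (padicNorm.int_lt_one_iff (p := 5) D).1 h1
    exact_mod_cast hss (by exact_mod_cast this)
  rcases lt_trichotomy 1 (padicNorm 5 h) with h1 | h1 | h1
  · left
    refine ⟨h1, ?_⟩
    rw [norm_poly_gt h1] at hc'
    rw [← hc']
    apply hss'
    rw [hD']
    rw [hc'] at hc1
    generalize padicNorm 5 Z = z at *
    generalize padicNorm 5 h = y at *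
    have hzy : z * y ≤ 1 := by nlinarith
    have hz1 : z < 1 := by nlinarith
    nlinarith [mul_pos hz hz]
  · right; left
    refine ⟨h1.symm, ?_⟩
    have h2 := norm_poly_le (p := 5) h1.symm.le
    by_contra hne
    rw [← h1, mul_one] at hD'
    generalize padicNorm 5 Z = z at *
    have hz1 : z < 1 := by
      refine lt_of_le_of_ne ?_ hne
      by_contra hcon
      rw [not_le] at hcon
      have : 1 < z * z := by nlinarith
      nlinarith
    have h3 := hss' (by rw [hD']; nlinarith [mul_pos hz hz])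
    rw [h3] at hc'
    nlinarith
  · right; right
    have h5 : padicNorm 5 5 = 5⁻¹ := by
      have := padicNorm.padicNorm_p_of_prime (p := 5)
      simpa using this
    have hle : padicNorm 5 h ≤ 5⁻¹ := by
      have := norm_le_inv_of_lt (p := 5) h1
      simpa using this
    have h10 : padicNorm 5 10 ≤ 5⁻¹ := by
      have := norm_le_inv_of_lt (p := 5) (q := 10) (by
        have := (padicNorm.int_lt_one_iff (p := 5) 10).2 (by norm_num)
        simpa using this)
      simpa using this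
    have e : padicNorm 5 (h ^ 2 + 10 * h) < 5⁻¹ := by
      refine lt_of_le_of_lt padicNorm.nonarchimedean (max_lt ?_ ?_)
      · rw [pow_two, padicNorm.mul]
        nlinarith [padicNorm.nonneg (p := 5) h]
      · rw [padicNorm.mul]
        nlinarith [padicNorm.nonneg (p := 5) h, padicNorm.nonneg (p := 5) 10]
    have e' : padicNorm 5 (h ^ 2 + 10 * h + 5) = 5⁻¹ := by
      rw [padicNorm.add_eq_max_of_ne (by rw [h5]; exact e.ne), h5, max_eq_right e.le]
    rw [e'] at hc'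
    have hz1 : 1 < padicNorm 5 Z := by
      by_contra hcon
      rw [not_lt] at hcon
      have h3 := hss' (by
        rw [hD']
        generalize padicNorm 5 Z = z at *
        generalize padicNorm 5 h = y at *
        have : z * z ≤ 1 := by nlinarith
        have : z * z * z ≤ 1 := by nlinarith
        nlinarith)
      rw [h3] at hc'
      linarith
    have hz5 : padicNorm 5 Z = 5 := by
      obtain ⟨n, hn⟩ := padicNorm.values_discrete (p := 5) hZ
      have hle5 : padicNorm 5 Z ≤ 5 := by rw [hc'] at hc1; linarith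
      rw [hn] at hz1 hle5 ⊢
      have h51 : (1 : ℚ) < 5 := by norm_num
      have h1 : 0 < -n := by
        by_contra hcon
        have := zpow_le_one_of_nonpos₀ h51.le (not_lt.1 hcon)
        push_cast at hz1
        linarith
      have h2 : -n ≤ 1 := by
        by_contra hcon
        have h3 : (5 : ℚ) ^ (2 : ℤ) ≤ 5 ^ (-n) := zpow_le_zpow_right₀ h51.le (by omega)
        push_cast at hle5
        have h4 : (5 : ℚ) ^ (2 : ℤ) = 25 := by norm_num
        rw [h4] at h3
        linarith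
      have h3 : -n = 1 := by omega
      rw [h3]; norm_num
    refine ⟨?_, hz5⟩
    rw [hz5] at hD'
    rw [hD'] at hD1
    linarith

/-! ### from norms to integers -/

theorem norm_den {p : ℕ} [hp : Fact p.Prime] (h : ℚ) (hh : 1 < padicNorm p h) :
    padicNorm p h * padicNorm p (h.den : ℚ) = 1 := by
  have e : h * h.den = h.num := Rat.mul_den_eq_num h
  have e' := congrArg (padicNorm p) e
  rw [padicNorm.mul] at e'
  rw [e']
  refine (padicNorm.int_eq_one_iff h.num).2 fun hd => ?_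
  have h1 : ¬ (p : ℤ) ∣ (h.den : ℤ) := by
    intro h2
    have h3 : p ∣ Nat.gcd h.num.natAbs h.den :=
      Nat.dvd_gcd (Int.natCast_dvd.1 hd) (by exact_mod_cast h2)
    rw [h.reduced] at h3
    exact hp.out.one_lt.ne' (Nat.dvd_one.1 h3)
  have h2 : padicNorm p (h.den : ℚ) = 1 := by
    have := (padicNorm.int_eq_one_iff (p := p) (h.den : ℤ)).2 h1
    simpa using this
  rw [h2, mul_one] at e'
  have := padicNorm.of_int (p := p) h.num
  linarith

theorem norm_den_le {p : ℕ} [hp : Fact p.Prime] (h : ℚ) (hh : padicNorm p h ≤ 1) :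
    padicNorm p (h.den : ℚ) = 1 := by
  have e : h * h.den = h.num := Rat.mul_den_eq_num h
  have e' := congrArg (padicNorm p) e
  rw [padicNorm.mul] at e'
  by_contra hne
  have hd : (p : ℤ) ∣ (h.den : ℤ) := by
    by_contra hcon
    apply hne
    have := (padicNorm.int_eq_one_iff (p := p) (h.den : ℤ)).2 hcon
    simpa using this
  have h1 : padicNorm p (h.den : ℚ) < 1 := by
    have := (padicNorm.int_lt_one_iff (p := p) (h.den : ℤ)).2 hd
    simpa using this
  have h2 : padicNorm p (h.num : ℚ) < 1 := by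
    rw [← e']
    have h3 := padicNorm.nonneg (p := p) h
    have h4 := padicNorm.nonneg (p := p) (h.den : ℚ)
    nlinarith
  have h3 := (padicNorm.int_lt_one_iff (p := p) h.num).1 h2
  have h4 : p ∣ Nat.gcd h.num.natAbs h.den :=
    Nat.dvd_gcd (Int.natCast_dvd.1 h3) (by exact_mod_cast hd)
  rw [h.reduced] at h4
  exact hp.out.one_lt.ne' (Nat.dvd_one.1 h4)

theorem eq_one_of_norm {q : ℚ} (hq : 0 < q) (h : ∀ p : ℕ, p.Prime → padicNorm p q = 1) :
    q = 1 := by
  have hden : q.den = 1 := by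
    by_contra hne
    obtain ⟨p, hp, hd⟩ := Nat.exists_prime_and_dvd hne
    have : Fact p.Prime := ⟨hp⟩
    have h1 := norm_den_le (p := p) q (h p hp).le
    have h2 : padicNorm p (q.den : ℚ) < 1 := by
      have := (padicNorm.int_lt_one_iff (p := p) (q.den : ℤ)).2 (by exact_mod_cast hd)
      simpa using this
    linarith
  have hq' : q = q.num := by
    have e : q * q.den = q.num := Rat.mul_den_eq_num q
    rwa [hden, Nat.cast_one, mul_one] at e
  have hnum : q.num.natAbs = 1 := by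
    by_contra hne
    obtain ⟨p, hp, hd⟩ := Nat.exists_prime_and_dvd hne
    have : Fact p.Prime := ⟨hp⟩
    have h1 := h p hp
    rw [hq'] at h1
    have h2 := (padicNorm.int_lt_one_iff (p := p) q.num).2 (Int.natCast_dvd.2 hd)
    linarith
  have hpos : 0 < q.num := Rat.num_pos.2 hq
  have : q.num = 1 := by omega
  rw [hq', this]; simp

theorem exists_int_of_sq {x : ℚ} {n : ℤ} (h : x ^ 2 = n) : ∃ m : ℤ, x = m := by
  have hint : IsIntegral ℤ x := by
    refine ⟨Polynomial.X ^ 2 - Polynomial.C n, ?_, ?_⟩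
    · exact Polynomial.monic_X_pow_sub_C n two_ne_zero
    · simp only [Polynomial.eval₂_sub, Polynomial.eval₂_pow,
        Polynomial.eval₂_X, Polynomial.eval₂_C]
      simp only [eq_intCast]
      rw [h, sub_self]
  obtain ⟨m, hm⟩ := IsIntegrallyClosed.isIntegral_iff.mp hint
  exact ⟨m, by rw [← hm]; rfl⟩

/-- **Integral form.** `e = 1` or `e = 5`. -/
theorem integral_five (W : WeierstrassCurve ℤ) (hΔ : W.Δ ≠ 0) (hW : W.IsSemistableModel)
    (hcon : ¬ W.ModRepIsIrreducible 5) :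
    ∃ H Q X : ℤ, IsCoprime H Q ∧ 0 < Q ∧
      ((X ^ 2 = H ^ 2 + 22 * H * Q + 125 * Q ^ 2 ∧ W.c₆ = -X * (H ^ 2 + 4 * H * Q - Q ^ 2)
          ∧ W.Δ = Q ^ 5 * H) ∨
        ((125 : ℤ) ∣ H ∧ 5 * X ^ 2 = H ^ 2 + 22 * H * Q + 125 * Q ^ 2 ∧
          5 * W.c₆ = -X * (H ^ 2 + 4 * H * Q - Q ^ 2) ∧ 125 * W.Δ = Q ^ 5 * H)) := by
  obtain ⟨Z, h, X, hZ, hX, h4, h6, hD⟩ := param_five W hΔ hcon
  have hZpos : 0 < Z := by
    have h1 : 0 < h ^ 2 + 22 * h + 125 := by nlinarith [sq_nonneg (h + 11)]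
    by_contra hneg
    have h2 : Z < 0 := lt_of_le_of_ne (not_lt.1 hneg) hZ
    have h3 : Z * (h ^ 2 + 22 * h + 125) < 0 := mul_neg_of_neg_of_pos h2 h1
    nlinarith [sq_nonneg X]
  have hQpos : (0 : ℚ) < h.den := by exact_mod_cast h.den_pos
  have hcop : IsCoprime h.num (h.den : ℤ) := by
    rw [Int.isCoprime_iff_nat_coprime]
    exact h.reduced
  have eH : h * h.den = h.num := Rat.mul_den_eq_num h
  -- away from `5`
  have hnorm : ∀ p : ℕ, p.Prime → p ≠ 5 → padicNorm p Z = padicNorm p (h.den : ℚ) ^ 2 := by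
    intro p hp hp5
    have : Fact p.Prime := ⟨hp⟩
    rcases dichotomy hp5 h4 hD (hW p hp) hZ with ⟨h1, h2⟩ | ⟨h1, h2⟩
    · have h3 := norm_den (p := p) h h1
      have h4 : padicNorm p Z * (padicNorm p h * padicNorm p (h.den : ℚ)) ^ 2 =
        (padicNorm p Z * padicNorm p h ^ 2) * padicNorm p (h.den : ℚ) ^ 2 := by ring
      rw [h2, h3] at h4
      simpa using h4
    · rw [norm_den_le h h1, h2, one_pow]
  have hQnorm : ∀ p : ℕ, p.Prime → padicNorm p (h.den : ℚ) ≠ 0 := by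
    intro p hp h0
    have : Fact p.Prime := ⟨hp⟩
    exact hQpos.ne' (padicNorm.zero_of_padicNorm_eq_zero h0)
  have h5p : ∀ p : ℕ, p.Prime → p ≠ 5 → padicNorm p 5 = 1 := by
    intro p hp hp5
    have : Fact p.Prime := ⟨hp⟩
    have := (padicNorm.int_eq_one_iff (p := p) 5).2 (by
      intro hd
      have : p ∣ 5 := by exact_mod_cast hd
      exact hp5 ((Nat.prime_dvd_prime_iff_eq hp Nat.prime_five).1 this))
    simpa using this
  have : Fact (Nat.Prime 5) := ⟨Nat.prime_five⟩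
  have hQne : (h.den : ℚ) ≠ 0 := hQpos.ne'
  have normQ : ∀ p : ℕ, p.Prime → ∀ c : ℚ, padicNorm p (c / (h.den : ℚ) ^ 2) =
      padicNorm p c / padicNorm p (h.den : ℚ) ^ 2 := by
    intro p hp c
    have : Fact p.Prime := ⟨hp⟩
    rw [pow_two, pow_two, padicNorm.div, padicNorm.mul]
  -- the first case
  have caseI : padicNorm 5 Z = padicNorm 5 (h.den : ℚ) ^ 2 →
      ∃ Y : ℤ, (Y ^ 2 = h.num ^ 2 + 22 * h.num * h.den + 125 * (h.den : ℤ) ^ 2 ∧
        W.c₆ = -Y * (h.num ^ 2 + 4 * h.num * h.den - (h.den : ℤ) ^ 2)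
          ∧ W.Δ = (h.den : ℤ) ^ 5 * h.num) := by
    intro h5
    have hq : Z / (h.den : ℚ) ^ 2 = 1 := by
      apply eq_one_of_norm (by positivity)
      intro p hp
      rw [normQ p hp]
      by_cases hp5 : p = 5
      · subst hp5
        rw [h5]
        exact div_self (pow_ne_zero _ (hQnorm 5 hp))
      · rw [hnorm p hp hp5]
        exact div_self (pow_ne_zero _ (hQnorm p hp))
    have hZQ : Z = (h.den : ℚ) ^ 2 := by
      field_simp at hq
      linarith
    have hX2 : X ^ 2 = ((h.num ^ 2 + 22 * h.num * h.den + 125 * (h.den : ℤ) ^ 2 : ℤ) : ℚ) := by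
      push_cast
      rw [hX, hZQ, ← eH]; ring
    obtain ⟨Y, hY⟩ := exists_int_of_sq hX2
    refine ⟨Y, ?_, ?_, ?_⟩
    · rw [hY] at hX2; exact_mod_cast hX2
    · have : (W.c₆ : ℚ) = ((-Y * (h.num ^ 2 + 4 * h.num * h.den - (h.den : ℤ) ^ 2) : ℤ) : ℚ) := by
        push_cast
        rw [h6, hZQ, hY, ← eH]; ring
      exact_mod_cast this
    · have : (W.Δ : ℚ) = (((h.den : ℤ) ^ 5 * h.num : ℤ) : ℚ) := by
        push_cast
        rw [hD, hZQ, ← eH]; ring
      exact_mod_cast this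
  rcases dichotomy_five h4 hD (by exact_mod_cast hW 5 Nat.prime_five) hZ with
    ⟨h5, h5'⟩ | ⟨h5, h5'⟩ | ⟨h5, h5'⟩
  · obtain ⟨Y, hY⟩ := caseI (by
      have h3 := norm_den (p := 5) h h5
      have h4 : padicNorm 5 Z * (padicNorm 5 h * padicNorm 5 (h.den : ℚ)) ^ 2 =
        (padicNorm 5 Z * padicNorm 5 h ^ 2) * padicNorm 5 (h.den : ℚ) ^ 2 := by ring
      rw [h5', h3] at h4
      simpa using h4)
    exact ⟨h.num, h.den, Y, hcop, by exact_mod_cast h.den_pos, Or.inl hY⟩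
  · obtain ⟨Y, hY⟩ := caseI (by
      rw [norm_den_le (p := 5) h h5.le, h5', one_pow])
    exact ⟨h.num, h.den, Y, hcop, by exact_mod_cast h.den_pos, Or.inl hY⟩
  · have hQ5 : padicNorm 5 (h.den : ℚ) = 1 := norm_den_le (p := 5) h (h5.trans (by norm_num))
    have h55 : padicNorm 5 5 = 5⁻¹ := by
      have := padicNorm.padicNorm_p_of_prime (p := 5)
      simpa using this
    have hq : (5 * Z) / (h.den : ℚ) ^ 2 = 1 := by
      apply eq_one_of_norm (by positivity)
      intro p hp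
      rw [normQ p hp]
      have : Fact p.Prime := ⟨hp⟩
      rw [padicNorm.mul]
      by_cases hp5 : p = 5
      · subst hp5
        rw [hQ5, h5', h55]
        norm_num
      · rw [hnorm p hp hp5, h5p p hp hp5, one_mul]
        exact div_self (pow_ne_zero _ (hQnorm p hp))
    have hZQ : 5 * Z = (h.den : ℚ) ^ 2 := by
      field_simp at hq
      linarith
    have h125 : (125 : ℤ) ∣ h.num := by
      have h1 : padicNorm 5 (h.num : ℚ) ≤ (5 : ℕ) ^ (-(3 : ℕ) : ℤ) := by
        rw [← eH, padicNorm.mul, hQ5, mul_one]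
        refine h5.trans (le_of_eq ?_)
        norm_num
      have h2 := (padicNorm.dvd_iff_norm_le (p := 5) (n := 3) (z := h.num)).2 h1
      norm_num at h2
      exact h2
    obtain ⟨H', hH'⟩ := h125
    have h5X : 5 * X ^ 2 = ((h.num ^ 2 + 22 * h.num * h.den + 125 * (h.den : ℤ) ^ 2 : ℤ) : ℚ) := by
      push_cast
      rw [hX, ← eH]
      have : 5 * (Z * (h ^ 2 + 22 * h + 125)) = (5 * Z) * (h ^ 2 + 22 * h + 125) := by ring
      rw [this, hZQ]; ring
    have hX2 : X ^ 2 = ((3125 * H' ^ 2 + 550 * H' * h.den + 25 * (h.den : ℤ) ^ 2 : ℤ) : ℚ) := by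
      have : 5 * X ^ 2 = 5 *
          ((3125 * H' ^ 2 + 550 * H' * h.den + 25 * (h.den : ℤ) ^ 2 : ℤ) : ℚ) := by
        rw [h5X, hH']
        push_cast
        ring
      exact mul_left_cancel₀ (by norm_num) this
    obtain ⟨Y, hY⟩ := exists_int_of_sq hX2
    refine ⟨h.num, h.den, Y, hcop, by exact_mod_cast h.den_pos, Or.inr ⟨⟨H', hH'⟩, ?_, ?_, ?_⟩⟩
    · rw [hY] at h5X; exact_mod_cast h5X
    · have : (5 : ℚ) * W.c₆ =
          ((-Y * (h.num ^ 2 + 4 * h.num * h.den - (h.den : ℤ) ^ 2) : ℤ) : ℚ) := by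
        push_cast
        rw [h6, hY, ← eH]
        have : 5 * (-(Y : ℚ) * Z * (h ^ 2 + 4 * h - 1)) = -(Y : ℚ) * (5 * Z) *
          (h ^ 2 + 4 * h - 1) := by ring
        rw [this, hZQ]; ring
      exact_mod_cast this
    · have : (125 : ℚ) * W.Δ = (((h.den : ℤ) ^ 5 * h.num : ℤ) : ℚ) := by
        push_cast
        rw [hD, ← eH]
        have : 125 * (Z ^ 3 * h) = (5 * Z) ^ 3 * h := by ring
        rw [this, hZQ]; ring
      exact_mod_cast this

/-! ### the Pythagorean argument -/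

theorem dvd_ten {a : ℕ} (ha : Squarefree a) (h : ∀ p : ℕ, p.Prime → p ∣ a → p = 2 ∨ p = 5) :
    a ∣ 10 := by
  have h1 : ∏ p ∈ a.primeFactors, p = a := Nat.prod_primeFactors_of_squarefree ha
  have h2 : a.primeFactors ⊆ {2, 5} := by
    intro p hp
    rw [Finset.mem_insert, Finset.mem_singleton]
    exact h p (Nat.prime_of_mem_primeFactors hp) (Nat.dvd_of_mem_primeFactors hp)
  have h3 := Finset.prod_dvd_prod_of_subset _ _ (fun p => p) h2
  rw [h1] at h3
  simpa using h3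

/-- `X + α` is a square modulo `r`. -/
theorem pyth {X α β : ℤ} {r : ℕ} (hX : 0 < X) (h : X ^ 2 = α ^ 2 + β ^ 2) (hβ : β ≠ 0)
    (hcop : ∀ p : ℕ, p.Prime → p ≠ 2 → p ≠ 5 → ¬ ((p : ℤ) ∣ α ∧ (p : ℤ) ∣ β))
    (h2 : IsSquare (2 : ZMod r)) (h5 : IsSquare (5 : ZMod r)) :
    IsSquare ((X + α : ℤ) : ZMod r) := by
  have hβ2 : 0 < β ^ 2 := by positivity
  have hlt : |α| < X := by
    apply abs_lt_of_sq_lt_sq _ hX.le
    linarith
  obtain ⟨h1, h1'⟩ := abs_lt.1 hlt
  have hN : 0 < X + α := by linarith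
  have hM : 0 < X - α := by linarith
  have hNM : (X + α) * (X - α) = β ^ 2 := by linear_combination h
  obtain ⟨n, hn⟩ := Int.eq_ofNat_of_zero_le hN.le
  obtain ⟨a, b, hab, hsq⟩ := Nat.sq_mul_squarefree n
  have hb0 : b ≠ 0 := by
    rintro rfl
    simp at hab
    rw [← hab] at hn
    simp at hn
    linarith
  -- `b ∣ β`
  have hbβ : (b : ℤ) ∣ β := by
    have : (b : ℤ) ^ 2 ∣ β ^ 2 := by
      rw [← hNM, hn, ← hab]
      push_cast
      exact ⟨a * (X - α), by ring⟩
    exact (Int.pow_dvd_pow_iff two_ne_zero).1 this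
  obtain ⟨c, hc⟩ := hbβ
  have haM : (a : ℤ) * (X - α) = c ^ 2 := by
    have : (b : ℤ) ^ 2 * (a * (X - α)) = b ^ 2 * c ^ 2 := by
      have e : (b : ℤ) ^ 2 * a = X + α := by
        rw [hn, ← hab]; push_cast; ring
      calc (b : ℤ) ^ 2 * (a * (X - α)) = (b ^ 2 * a) * (X - α) := by ring
        _ = β ^ 2 := by rw [e, hNM]
        _ = b ^ 2 * c ^ 2 := by rw [hc]; ring
    exact mul_left_cancel₀ (pow_ne_zero 2 (by exact_mod_cast hb0)) this
  have ha10 : a ∣ 10 := by
    apply dvd_ten hsq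
    intro p hp hpa
    by_contra hcon
    push Not at hcon
    have hpI : Prime (p : ℤ) := Nat.prime_iff_prime_int.mp hp
    have hpa' : (p : ℤ) ∣ a := by exact_mod_cast hpa
    have hpc : (p : ℤ) ∣ c := by
      apply hpI.dvd_of_dvd_pow (n := 2)
      rw [← haM]
      exact Dvd.dvd.mul_right hpa' _
    have hpN : (p : ℤ) ∣ X + α := by
      rw [hn, ← hab]
      push_cast
      exact Dvd.dvd.mul_left hpa' _
    have hpM : ¬ (p : ℤ) ∣ X - α := by
      intro hd
      have e2 : (p : ℤ) ∣ 2 * α := by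
        have := dvd_sub hpN hd
        rwa [show X + α - (X - α) = 2 * α by ring] at this
      have e3 : (p : ℤ) ∣ α := by
        rcases hpI.dvd_or_dvd e2 with h | h
        · exfalso
          have : p ∣ 2 := by exact_mod_cast h
          exact hcon.1 ((Nat.prime_dvd_prime_iff_eq hp Nat.prime_two).1 this)
        · exact h
      have e4 : (p : ℤ) ∣ β := by
        apply hpI.dvd_of_dvd_pow (n := 2)
        rw [← hNM]
        exact Dvd.dvd.mul_right hpN _
      exact hcop p hp hcon.1 hcon.2 ⟨e3, e4⟩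
    have hp2 : (p : ℤ) ^ 2 ∣ a * (X - α) := by
      rw [haM]; exact pow_dvd_pow_of_dvd hpc 2
    have hcop2 : IsCoprime ((p : ℤ) ^ 2) (X - α) :=
      IsCoprime.pow_left ((Prime.coprime_iff_not_dvd hpI).2 hpM)
    have hp3 : (p : ℤ) ^ 2 ∣ a := hcop2.dvd_of_dvd_mul_right hp2
    have hp4 : p ^ 2 ∣ a := by exact_mod_cast hp3
    have := hsq p (by rw [← pow_two]; exact hp4)
    exact hp.one_lt.ne' (Nat.isUnit_iff.1 this)
  have ha' : IsSquare (a : ZMod r) := by
    have h10 : a ≤ 10 := Nat.le_of_dvd (by norm_num) ha10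
    interval_cases a
    · omega
    · simp
    · simpa using h2
    · omega
    · omega
    · simpa using h5
    · omega
    · omega
    · omega
    · omega
    · have := h2.mul h5
      norm_num at this
      simpa using this
  have : ((X + α : ℤ) : ZMod r) = (b : ZMod r) ^ 2 * a := by
    rw [hn, ← hab]; push_cast; ring
  rw [this]
  exact (IsSquare.sq _).mul ha'

/-- The conditions on the auxiliary primes. -/
structure Aux5 (r : ℕ) : Prop where
  prime : r.Prime
  gt : 5 < r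
  mod4 : r % 4 = 3
  two : IsSquare (2 : ZMod r)
  five : IsSquare (5 : ZMod r)
  root : ∃ n : ZMod r, n ^ 2 = 125 ∧ IsSquare (n * (n + 11)) ∧ IsSquare (n * (n - 11))

theorem Aux5.natCast_ne {r : ℕ} (hr : Aux5 r) {k : ℕ} (hk : k ≠ 0) (hlt : k ≤ 5) :
    (k : ZMod r) ≠ 0 := by
  intro h
  rw [ZMod.natCast_eq_zero_iff] at h
  have := Nat.le_of_dvd (Nat.pos_of_ne_zero hk) h
  have := hr.gt
  omega

theorem Aux5.not_dvd_of_coprime {r : ℕ} (hr : Aux5 r) {H Q : ℤ} (hcop : IsCoprime H Q)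
    (hH : (r : ℤ) ∣ H) : (Q : ZMod r) ≠ 0 := by
  intro h
  have h1 := (ZMod.intCast_zmod_eq_zero_iff_dvd Q r).1 h
  have h2 := hcop.isUnit_of_dvd' hH h1
  have h3 := Int.isUnit_iff_natAbs_eq.1 h2
  rw [Int.natAbs_natCast] at h3
  have := hr.gt
  omega

theorem core_one {H Q X : ℤ} (hcop : IsCoprime H Q) (hX : 0 < X)
    (h : X ^ 2 = H ^ 2 + 22 * H * Q + 125 * Q ^ 2) {r : ℕ} (hr : Aux5 r) (hH : (r : ℤ) ∣ H) :
    IsSquare (X : ZMod r) ∧ (X : ZMod r) ≠ 0 := by
  have : Fact r.Prime := ⟨hr.prime⟩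
  have hQ := hr.not_dvd_of_coprime hcop hH
  have h2 : (2 : ZMod r) ≠ 0 := by
    simpa using hr.natCast_ne (k := 2) (by norm_num) (by norm_num)
  have h5 : (5 : ZMod r) ≠ 0 := by
    simpa using hr.natCast_ne (k := 5) (by norm_num) (by norm_num)
  have hQ0 : Q ≠ 0 := by
    rintro rfl
    simp at hQ
  have key := pyth (r := r) (α := H + 11 * Q) (β := 2 * Q) hX (by rw [h]; ring)
    (mul_ne_zero two_ne_zero hQ0) (by
      rintro p hp hp2 - ⟨hd1, hd2⟩
      have hpI : Prime (p : ℤ) := Nat.prime_iff_prime_int.mp hp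
      have e1 : (p : ℤ) ∣ Q := by
        rcases hpI.dvd_or_dvd hd2 with h | h
        · exfalso
          have : p ∣ 2 := by exact_mod_cast h
          exact hp2 ((Nat.prime_dvd_prime_iff_eq hp Nat.prime_two).1 this)
        · exact h
      have e2 : (p : ℤ) ∣ H := by
        have := dvd_sub hd1 (Dvd.dvd.mul_left e1 11)
        rwa [show H + 11 * Q - 11 * Q = H by ring] at this
      exact hpI.not_isUnit (hcop.isUnit_of_dvd' e2 e1)) hr.two hr.five
  obtain ⟨n, hn, hn1, hn2⟩ := hr.root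
  have hH0 : (H : ZMod r) = 0 := (ZMod.intCast_zmod_eq_zero_iff_dvd H r).2 hH
  have hX2 : (X : ZMod r) ^ 2 = 125 * (Q : ZMod r) ^ 2 := by
    have := congrArg (Int.cast : ℤ → ZMod r) h
    push_cast at this
    rw [this, hH0]; ring
  push_cast at key
  rw [hH0, zero_add] at key
  have hfac : ((X : ZMod r) - n * Q) * (X + n * Q) = 0 := by
    linear_combination hX2 - (Q : ZMod r) ^ 2 * hn
  have hn4 : (n + 11) * (n - 11) = 2 ^ 2 := by linear_combination hn
  have hn0 : n ≠ 0 := by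
    rintro rfl
    apply pow_ne_zero 3 h5
    linear_combination -hn
  have hXne : (X : ZMod r) ≠ 0 := by
    intro h0
    rw [h0] at hX2
    have : (5 : ZMod r) ^ 3 * (Q : ZMod r) ^ 2 = 0 := by linear_combination -hX2
    exact mul_ne_zero (pow_ne_zero _ h5) (pow_ne_zero _ hQ) this
  refine ⟨?_, hXne⟩
  have fin : ∀ c : ZMod r, c ≠ 0 → IsSquare c → IsSquare ((X : ZMod r) * c) →
      IsSquare (X : ZMod r) := by
    intro c hc0 hc hXc
    have : (X : ZMod r) = (X * c) / c := by field_simp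
    rw [this]
    exact hXc.div hc
  have h11 : n + 11 ≠ 0 := by
    intro h0
    rw [h0, zero_mul] at hn4
    exact pow_ne_zero 2 h2 hn4.symm
  have h11' : n - 11 ≠ 0 := by
    intro h0
    rw [h0, mul_zero] at hn4
    exact pow_ne_zero 2 h2 hn4.symm
  rcases mul_eq_zero.1 hfac with h0 | h0
  · have eX : (X : ZMod r) = n * Q := by linear_combination h0
    refine fin _ ?_ key ?_
    · rw [eX, ← add_mul]
      exact mul_ne_zero h11 hQ
    · have : (X : ZMod r) * (X + 11 * Q) = (n * (n + 11)) * (Q : ZMod r) ^ 2 := by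
        rw [eX]; ring
      rw [this]
      exact hn1.mul (IsSquare.sq _)
  · have eX : (X : ZMod r) = -(n * Q) := by linear_combination h0
    refine fin _ ?_ key ?_
    · rw [eX, show -(n * (Q : ZMod r)) + 11 * Q = -((n - 11) * Q) by ring]
      exact neg_ne_zero.2 (mul_ne_zero h11' hQ)
    · have : (X : ZMod r) * (X + 11 * Q) = (n * (n - 11)) * (Q : ZMod r) ^ 2 := by
        rw [eX]; ring
      rw [this]
      exact hn2.mul (IsSquare.sq _)

theorem core_five {H Q X : ℤ} (hcop : IsCoprime H Q) (hX : 0 < X) (h125 : (125 : ℤ) ∣ H)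
    (h : 5 * X ^ 2 = H ^ 2 + 22 * H * Q + 125 * Q ^ 2) {r : ℕ} (hr : Aux5 r)
    (hH : (r : ℤ) ∣ H) :
    IsSquare (X : ZMod r) ∧ (X : ZMod r) ≠ 0 := by
  have : Fact r.Prime := ⟨hr.prime⟩
  have hQ := hr.not_dvd_of_coprime hcop hH
  have h2 : (2 : ZMod r) ≠ 0 := by
    simpa using hr.natCast_ne (k := 2) (by norm_num) (by norm_num)
  have h3 : (3 : ZMod r) ≠ 0 := by
    simpa using hr.natCast_ne (k := 3) (by norm_num) (by norm_num)
  have h5 : (5 : ZMod r) ≠ 0 := by
    simpa using hr.natCast_ne (k := 5) (by norm_num) (by norm_num)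
  have hcop5 : ¬ (5 : ℤ) ∣ Q := by
    intro hd
    have h5H : (5 : ℤ) ∣ H := dvd_trans (by norm_num) h125
    have := Int.isUnit_iff_natAbs_eq.1 (hcop.isUnit_of_dvd' h5H hd)
    norm_num at this
  obtain ⟨K, hK⟩ := h125
  have hX2 : X ^ 2 = (-50 * K - 4 * Q) ^ 2 + (25 * K + 3 * Q) ^ 2 := by
    have : 5 * X ^ 2 = 5 * ((-50 * K - 4 * Q) ^ 2 + (25 * K + 3 * Q) ^ 2) := by
      rw [h, hK]; ring
    exact mul_left_cancel₀ (by norm_num) this
  have key := pyth (r := r) (α := -50 * K - 4 * Q) (β := 25 * K + 3 * Q) hX hX2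
    (by intro h0; omega) (by
      rintro p hp hp2 hp5 ⟨hd1, hd2⟩
      have hpI : Prime (p : ℤ) := Nat.prime_iff_prime_int.mp hp
      have e1 : (p : ℤ) ∣ 2 * Q := by
        have := dvd_add hd1 (Dvd.dvd.mul_left hd2 2)
        rwa [show -50 * K - 4 * Q + 2 * (25 * K + 3 * Q) = 2 * Q by ring] at this
      have e2 : (p : ℤ) ∣ Q := by
        rcases hpI.dvd_or_dvd e1 with h | h
        · exfalso
          have : p ∣ 2 := by exact_mod_cast h
          exact hp2 ((Nat.prime_dvd_prime_iff_eq hp Nat.prime_two).1 this)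
        · exact h
      have e3 : (p : ℤ) ∣ 25 * K := by
        have := dvd_sub hd2 (Dvd.dvd.mul_left e2 3)
        rwa [show 25 * K + 3 * Q - 3 * Q = 25 * K by ring] at this
      have e4 : (p : ℤ) ∣ H := by
        rw [hK, show 125 * K = 5 * (25 * K) by ring]
        exact Dvd.dvd.mul_left e3 _
      exact hpI.not_isUnit (hcop.isUnit_of_dvd' e4 e2)) hr.two hr.five
  have hK0 : (K : ZMod r) = 0 := by
    have hH0 : (H : ZMod r) = 0 := (ZMod.intCast_zmod_eq_zero_iff_dvd H r).2 hH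
    rw [hK] at hH0
    push_cast at hH0
    have : (5 : ZMod r) ^ 3 * (K : ZMod r) = 0 := by linear_combination hH0
    exact (mul_eq_zero.1 this).resolve_left (pow_ne_zero _ h5)
  have hX2' : (X : ZMod r) ^ 2 = 25 * (Q : ZMod r) ^ 2 := by
    have := congrArg (Int.cast : ℤ → ZMod r) hX2
    push_cast at this
    rw [this, hK0]; ring
  push_cast at key
  rw [hK0, mul_zero, zero_sub] at key
  have hXne : (X : ZMod r) ≠ 0 := by
    intro h0
    rw [h0] at hX2'
    have : (5 : ZMod r) ^ 2 * (Q : ZMod r) ^ 2 = 0 := by linear_combination -hX2'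
    exact mul_ne_zero (pow_ne_zero _ h5) (pow_ne_zero _ hQ) this
  refine ⟨?_, hXne⟩
  have fin : ∀ c : ZMod r, c ≠ 0 → IsSquare c → IsSquare ((X : ZMod r) * c) →
      IsSquare (X : ZMod r) := by
    intro c hc0 hc hXc
    have : (X : ZMod r) = (X * c) / c := by field_simp
    rw [this]
    exact hXc.div hc
  have hfac : ((X : ZMod r) - 5 * Q) * (X + 5 * Q) = 0 := by
    linear_combination hX2'
  rcases mul_eq_zero.1 hfac with h0 | h0
  · have eX : (X : ZMod r) = 5 * Q := by linear_combination h0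
    refine fin _ ?_ key ?_
    · rw [eX, show 5 * (Q : ZMod r) + -(4 * Q) = Q by ring]
      exact hQ
    · have : (X : ZMod r) * (X + -(4 * Q)) = 5 * (Q : ZMod r) ^ 2 := by
        rw [eX]; ring
      rw [this]
      exact hr.five.mul (IsSquare.sq _)
  · have eX : (X : ZMod r) = -(5 * Q) := by linear_combination h0
    refine fin _ ?_ key ?_
    · rw [eX, show -(5 * (Q : ZMod r)) + -(4 * Q) = -(3 ^ 2 * Q) by ring]
      exact neg_ne_zero.2 (mul_ne_zero (pow_ne_zero _ h3) hQ)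
    · have : (X : ZMod r) * (X + -(4 * Q)) = 5 * (3 * (Q : ZMod r)) ^ 2 := by
        rw [eX]; ring
      rw [this]
      exact hr.five.mul (IsSquare.sq _)

theorem dvd_H_one {H Q D : ℤ} (hD : D = Q ^ 5 * H) {r : ℕ} (hr : r.Prime) (hd : (r : ℤ) ^ 3 ∣ D)
    (hd' : ¬ (r : ℤ) ^ 4 ∣ D) : (r : ℤ) ∣ H := by
  have hpI : Prime (r : ℤ) := Nat.prime_iff_prime_int.mp hr
  have h1 : (r : ℤ) ∣ Q ^ 5 * H := by
    rw [← hD]; exact (dvd_pow_self _ (by norm_num)).trans hd
  rcases hpI.dvd_or_dvd h1 with h | h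
  · exfalso
    apply hd'
    rw [hD]
    have h2 : (r : ℤ) ^ 5 ∣ Q ^ 5 := pow_dvd_pow_of_dvd (hpI.dvd_of_dvd_pow h) 5
    exact Dvd.dvd.mul_right ((pow_dvd_pow _ (by norm_num)).trans h2) _
  · exact h

theorem dvd_H_five {H Q D : ℤ} (hD : 125 * D = Q ^ 5 * H) {r : ℕ} (hr : Aux5 r)
    (hd : (r : ℤ) ^ 3 ∣ D) (hd' : ¬ (r : ℤ) ^ 4 ∣ D) : (r : ℤ) ∣ H := by
  have hpI : Prime (r : ℤ) := Nat.prime_iff_prime_int.mp hr.prime
  have hcop : IsCoprime ((r : ℤ) ^ 4) (5 ^ 3) := by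
    apply IsCoprime.pow
    rw [Prime.coprime_iff_not_dvd hpI]
    intro h
    have h1 : r ∣ 5 := by exact_mod_cast h
    have := Nat.le_of_dvd (by norm_num) h1
    have := hr.gt
    omega
  refine dvd_H_one hD hr.prime (Dvd.dvd.mul_left hd _) fun h => hd' ?_
  have h2 : (125 : ℤ) = 5 ^ 3 := by norm_num
  rw [h2] at h
  exact hcop.dvd_of_dvd_mul_left h

/-- **Irreducibility modulo `5`.** -/
theorem irreducible_five (W : WeierstrassCurve ℤ) (hΔ : W.Δ ≠ 0) (hW : W.IsSemistableModel)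
    {r₁ r₂ : ℕ} (h₁ : Aux5 r₁) (h₂ : Aux5 r₂) (hd₁ : (r₁ : ℤ) ^ 3 ∣ W.Δ)
    (hd₁' : ¬ (r₁ : ℤ) ^ 4 ∣ W.Δ) (hd₂ : (r₂ : ℤ) ^ 3 ∣ W.Δ) (hd₂' : ¬ (r₂ : ℤ) ^ 4 ∣ W.Δ)
    (hs₁ : IsSquare (-(W.c₆ : ZMod r₁))) (hs₂ : IsSquare (W.c₆ : ZMod r₂)) :
    W.ModRepIsIrreducible 5 := by
  by_contra hcon
  obtain ⟨H, Q, X, hcop, hQ, hcases⟩ := integral_five W hΔ hW hcon
  have : Fact r₁.Prime := ⟨h₁.prime⟩
  have : Fact r₂.Prime := ⟨h₂.prime⟩
  -- a common formulation of both cases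
  obtain ⟨e, he, hX, hH₁, hH₂, hc, key⟩ : ∃ e : ℤ, (e = 1 ∨ e = 5) ∧
      e * X ^ 2 = H ^ 2 + 22 * H * Q + 125 * Q ^ 2 ∧ (r₁ : ℤ) ∣ H ∧ (r₂ : ℤ) ∣ H ∧
      e * W.c₆ = -X * (H ^ 2 + 4 * H * Q - Q ^ 2) ∧
      ∀ X' : ℤ, X' ^ 2 = X ^ 2 → 0 < X' → ∀ r : ℕ, Aux5 r → (r : ℤ) ∣ H →
        IsSquare (X' : ZMod r) ∧ (X' : ZMod r) ≠ 0 := by
    rcases hcases with ⟨h, hc, hD⟩ | ⟨h125, h, hc, hD⟩
    · refine ⟨1, Or.inl rfl, by linarith, dvd_H_one hD h₁.prime hd₁ hd₁',
        dvd_H_one hD h₂.prime hd₂ hd₂', by linarith, fun X' hX' hpos r hr hH => ?_⟩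
      exact core_one hcop hpos (by rw [hX', h]) hr hH
    · refine ⟨5, Or.inr rfl, h, dvd_H_five hD h₁ hd₁ hd₁', dvd_H_five hD h₂ hd₂ hd₂', hc,
        fun X' hX' hpos r hr hH => ?_⟩
      exact core_five hcop hpos h125 (by rw [hX', h]) hr hH
  have cong : ∀ r : ℕ, Aux5 r → (r : ℤ) ∣ H →
      (Q : ZMod r) ≠ 0 ∧ (e : ZMod r) ≠ 0 ∧ IsSquare (e : ZMod r) ∧
        (e : ZMod r) * (W.c₆ : ZMod r) = X * (Q : ZMod r) ^ 2 := by
    intro r hr hH
    have hH0 : (H : ZMod r) = 0 := (ZMod.intCast_zmod_eq_zero_iff_dvd H r).2 hH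
    refine ⟨hr.not_dvd_of_coprime hcop hH, ?_, ?_, ?_⟩
    · rcases he with rfl | rfl
      · simpa using hr.natCast_ne (k := 1) (by norm_num) (by norm_num)
      · simpa using hr.natCast_ne (k := 5) (by norm_num) (by norm_num)
    · rcases he with rfl | rfl
      · simp
      · simpa using hr.five
    · have := congrArg (Int.cast : ℤ → ZMod r) hc
      push_cast at this
      rw [this, hH0]; ring
  have hX0 : X ≠ 0 := by
    rintro rfl
    have : 0 < Q ^ 2 := by positivity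
    nlinarith [sq_nonneg (H + 11 * Q)]
  rcases lt_or_gt_of_ne hX0 with hneg | hpos
  · obtain ⟨hsq, hne⟩ := key (-X) (by ring) (by linarith) r₂ h₂ hH₂
    obtain ⟨hQ2, he2, hes, hc2⟩ := cong r₂ h₂ hH₂
    push_cast at hsq hne
    have e1 : -(W.c₆ : ZMod r₂) = (-(X : ZMod r₂) * (Q : ZMod r₂) ^ 2) / e := by
      field_simp
      linear_combination -hc2
    refine Switch.not_isSquare_neg h₂.mod4 (z := (W.c₆ : ZMod r₂)) ?_ hs₂ ?_
    · intro h0
      rw [h0, mul_zero] at hc2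
      exact mul_ne_zero (fun h => hne (by rw [h, neg_zero])) (pow_ne_zero 2 hQ2) hc2.symm
    · rw [e1]
      exact (hsq.mul (IsSquare.sq _)).div hes
  · obtain ⟨hsq, hne⟩ := key X rfl hpos r₁ h₁ hH₁
    obtain ⟨hQ1, he1, hes, hc1⟩ := cong r₁ h₁ hH₁
    have e1 : (W.c₆ : ZMod r₁) = ((X : ZMod r₁) * (Q : ZMod r₁) ^ 2) / e := by
      field_simp
      linear_combination hc1
    refine Switch.not_isSquare_neg h₁.mod4 (z := (W.c₆ : ZMod r₁)) ?_ ?_ hs₁
    · intro h0
      rw [h0, mul_zero] at hc1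
      exact mul_ne_zero hne (pow_ne_zero 2 hQ1) hc1.symm
    · rw [e1]
      exact (hsq.mul (IsSquare.sq _)).div hes

end Fermat.Agent.LTF.Chain
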