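import Fermat.Agent.LTF.Chain.Two
import Fermat.Agent.S52.Congr
import Fermat.Agent.LTF.Trace3

/-!
# The `5`-switch at `2`: semistability and congruences
-/

set_option autoImplicit false

namespace Fermat.Agent.LTF.Chain

open WeierstrassCurve Fermat.Agent.S52x

/-- The data of the switched curve. -/
structure Sw (W V : WeierstrassCurve ℤ) (m : ℤ) : Prop where
  c4 : 2 ^ 40 * V.c₄ = C4h W.c₄ W.c₆ (2 ^ 66) m
  c6 : 2 ^ 60 * V.c₆ = C6h W.c₄ W.c₆ (2 ^ 66) m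
  d : 2 ^ 120 * V.Δ = W.Δ * Dh W.c₄ W.c₆ (2 ^ 66) m ^ 5
  n2 : ¬ (2 : ℤ) ∣ V.c₄
  d2 : (2 : ℤ) ∣ V.Δ
  b2 : (3 : ℤ) ∣ V.b₂ - W.b₂
  b4 : (3 : ℤ) ∣ V.b₄ - W.b₄
  b6 : (3 : ℤ) ∣ V.b₆ - W.b₆

section field

variable {F : Type*} [Field F]

theorem fam_c (h2 : (2 : F) ≠ 0) (h3 : (3 : F) ≠ 0) {W₀ V₀ : WeierstrassCurve F} {m : F}
    (h4 : 2 ^ 40 * V₀.c₄ = C4h W₀.c₄ W₀.c₆ (2 ^ 66) m)
    (h6 : 2 ^ 60 * V₀.c₆ = C6h W₀.c₄ W₀.c₆ (2 ^ 66) m) :
    ∃ m₀ : F, V₀.c₄ = (2 ^ 320) ^ 4 * (famCurve W₀ m₀).c₄ ∧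
      V₀.c₆ = (2 ^ 320) ^ 6 * (famCurve W₀ m₀).c₆ := by
  have h1728 : (1728 : F) ≠ 0 := by
    have : (1728 : F) = 2 ^ 6 * 3 ^ 3 := by norm_num
    rw [this]; exact mul_ne_zero (pow_ne_zero _ h2) (pow_ne_zero _ h3)
  have hl : (2 : F) ^ 66 ≠ 0 := pow_ne_zero _ h2
  refine ⟨m / 2 ^ 66 / 1728, ?_, ?_⟩
  · rw [famCurve_c₄, mul_div_cancel₀ _ h1728]
    rw [C4h_eq hl] at h4
    apply mul_left_cancel₀ (pow_ne_zero 40 h2)
    rw [h4, ← pow_mul, ← pow_mul, ← mul_assoc, ← pow_add]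
  · rw [famCurve_c₆, mul_div_cancel₀ _ h1728]
    rw [C6h_eq hl] at h6
    apply mul_left_cancel₀ (pow_ne_zero 60 h2)
    rw [h6, ← pow_mul, ← pow_mul, ← mul_assoc, ← pow_add]

theorem trace_five [Fintype F] (h2 : (2 : F) ≠ 0) (h3 : (3 : F) ≠ 0) (h5 : (5 : F) ≠ 0)
    {W₀ V₀ : WeierstrassCurve F} {m : F}
    (h4 : 2 ^ 40 * V₀.c₄ = C4h W₀.c₄ W₀.c₆ (2 ^ 66) m)
    (h6 : 2 ^ 60 * V₀.c₆ = C6h W₀.c₄ W₀.c₆ (2 ^ 66) m) (hW : W₀.Δ ≠ 0) (hV : V₀.Δ ≠ 0) :
    (5 : ℤ) ∣ V₀.traceOfFrobenius - W₀.traceOfFrobenius := by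
  obtain ⟨m₀, e4, e6⟩ := fam_c h2 h3 h4 h6
  have hw : (2 : F) ^ 320 ≠ 0 := pow_ne_zero _ h2
  have h1728 : (1728 : F) ≠ 0 := by
    have : (1728 : F) = 2 ^ 6 * 3 ^ 3 := by norm_num
    rw [this]; exact mul_ne_zero (pow_ne_zero _ h2) (pow_ne_zero _ h3)
  have hF : (famCurve W₀ m₀).Δ ≠ 0 := by
    intro h0
    apply hV
    have r1 := V₀.c_relation
    have r2 := (famCurve W₀ m₀).c_relation
    rw [h0, mul_zero] at r2
    apply mul_left_cancel₀ h1728
    rw [r1, e4, e6, mul_zero]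
    generalize (2 : F) ^ 320 = w at *
    linear_combination -w ^ 12 * r2
  have t1 := Tr3.trace_sh V₀ hV one_ne_zero h2 h3
  rw [one_pow, one_pow, one_mul, one_mul] at t1
  have t2 := Tr3.trace_sh (famCurve W₀ m₀) hF hw h2 h3
  rw [← t1, e4, e6, t2]
  exact trace_congr hW hF h2 h3 h5

theorem trace_three [Finite F] (h2 : (2 : F) ≠ 0) {W₀ V₀ : WeierstrassCurve F} (hW : W₀.Δ ≠ 0)
    (h2' : V₀.b₂ = W₀.b₂) (h4 : V₀.b₄ = W₀.b₄) (h6 : V₀.b₆ = W₀.b₆) :
    V₀.traceOfFrobenius = W₀.traceOfFrobenius := by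
  have h4' : (4 : F) ≠ 0 := by
    have : (4 : F) = 2 * 2 := by norm_num
    rw [this]; exact mul_ne_zero h2 h2
  simp only [WeierstrassCurve.b₂] at h2'
  simp only [WeierstrassCurve.b₄] at h4
  simp only [WeierstrassCurve.b₆] at h6
  have key : (⟨1, 0, (V₀.a₁ - W₀.a₁) / 2, (V₀.a₃ - W₀.a₃) / 2⟩ : VariableChange F) • W₀ = V₀ := by
    ext
    · rw [variableChange_a₁]
      simp only [inv_one, Units.val_one]
      field_simp
      ring
    · rw [variableChange_a₂]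
      simp only [inv_one, Units.val_one]
      field_simp
      linear_combination -h2'
    · rw [variableChange_a₃]
      simp only [inv_one, Units.val_one]
      field_simp
      ring
    · rw [variableChange_a₄]
      simp only [inv_one, Units.val_one]
      field_simp
      linear_combination -h4
    · rw [variableChange_a₆]
      simp only [inv_one, Units.val_one]
      field_simp
      linear_combination -h6
  rw [← key, traceOfFrobenius, traceOfFrobenius, Fermat.Agent.S44w.card_variableChange _ _ hW]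

end field

theorem Sw.congr {W V : WeierstrassCurve ℤ} {m : ℤ} (h : Sw W V m) (ℓ : ℕ) (hℓ : ℓ.Prime)
    (h5 : ℓ ≠ 5) (hW : W.IsGoodPrimeFor ℓ) (hV : V.IsGoodPrimeFor ℓ) :
    (5 : ℤ) ∣ V.apOfModel ℓ - W.apOfModel ℓ := by
  have := Fact.mk hℓ
  have hc : ∀ n : ℤ, ((n : ℤ) : ZMod ℓ) = 0 ↔ (ℓ : ℤ) ∣ n := fun n =>
    ZMod.intCast_zmod_eq_zero_iff_dvd n ℓ
  have hp : ∀ p : ℕ, p.Prime → ℓ ≠ p → (p : ZMod ℓ) ≠ 0 := by
    intro p hp hne hd
    rw [ZMod.natCast_eq_zero_iff, Nat.prime_dvd_prime_iff_eq hℓ hp] at hd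
    exact hne hd
  have hWk : (W.reductionMod ℓ).Δ ≠ 0 := by
    rw [reductionMod, WeierstrassCurve.map_Δ]
    exact fun h0 => hW ((hc _).1 h0)
  have hVk : (V.reductionMod ℓ).Δ ≠ 0 := by
    rw [reductionMod, WeierstrassCurve.map_Δ]
    exact fun h0 => hV ((hc _).1 h0)
  by_cases hℓ2 : ℓ = 2
  · exfalso
    subst hℓ2
    exact hV h.d2
  have h2 : (2 : ZMod ℓ) ≠ 0 := by exact_mod_cast hp 2 Nat.prime_two hℓ2
  have h5' : (5 : ZMod ℓ) ≠ 0 := by exact_mod_cast hp 5 Nat.prime_five h5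
  simp only [WeierstrassCurve.apOfModel]
  by_cases hℓ3 : ℓ = 3
  · subst hℓ3
    rw [trace_three h2 hWk, sub_self]
    · exact dvd_zero _
    · simp only [reductionMod, WeierstrassCurve.map_b₂]
      have := (hc _).2 h.b2
      rw [Int.cast_sub] at this
      exact sub_eq_zero.1 this
    · simp only [reductionMod, WeierstrassCurve.map_b₄]
      have := (hc _).2 h.b4
      rw [Int.cast_sub] at this
      exact sub_eq_zero.1 this
    · simp only [reductionMod, WeierstrassCurve.map_b₆]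
      have := (hc _).2 h.b6
      rw [Int.cast_sub] at this
      exact sub_eq_zero.1 this
  have h3 : (3 : ZMod ℓ) ≠ 0 := by exact_mod_cast hp 3 Nat.prime_three hℓ3
  refine trace_five h2 h3 h5' (m := (m : ZMod ℓ)) ?_ ?_ hWk hVk
  · have := congrArg (Int.castRingHom (ZMod ℓ)) h.c4
    rw [map_mul, map_pow, map_C4h] at this
    simpa only [WeierstrassCurve.reductionMod, WeierstrassCurve.map_c₄,
      WeierstrassCurve.map_c₆, eq_intCast, map_ofNat, map_pow] using this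
  · have := congrArg (Int.castRingHom (ZMod ℓ)) h.c6
    rw [map_mul, map_pow, map_C6h] at this
    simpa only [WeierstrassCurve.reductionMod, WeierstrassCurve.map_c₄,
      WeierstrassCurve.map_c₆, eq_intCast, map_ofNat, map_pow] using this

theorem not_dvd_two_pow {p : ℕ} (hp : p.Prime) (h2 : p ≠ 2) (n : ℕ) : ¬ (p : ℤ) ∣ 2 ^ n := by
  intro h
  have h' := (Nat.prime_iff_prime_int.1 hp).dvd_of_dvd_pow h
  have : p ∣ 2 := by exact_mod_cast h'
  exact h2 ((Nat.prime_dvd_prime_iff_eq hp Nat.prime_two).1 this)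

theorem Sw.Δ_ne_zero {W V : WeierstrassCurve ℤ} {s : ℤ} (h : Sw W V (405 * W.Δ * s))
    (hΔ : W.Δ ≠ 0) : V.Δ ≠ 0 := by
  intro h0
  have hd := h.d
  rw [h0, mul_zero] at hd
  rcases mul_eq_zero.1 hd.symm with h1 | h1
  · exact hΔ h1
  · have h2 : Dh W.c₄ W.c₆ (2 ^ 66) (405 * W.Δ * s) = 0 := by simpa using h1
    have h3 := Dh_bot W.c₄ W.c₆ (2 ^ 66) (405 * W.Δ * s)
    rw [h2, zero_sub, dvd_neg, ← pow_mul] at h3
    have h5 : ((5 : ℕ) : ℤ) ∣ 2 ^ (66 * 12) := dvd_trans ⟨81 * W.Δ * s, by push_cast; ring⟩ h3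
    exact not_dvd_two_pow Nat.prime_five (by norm_num) _ h5

theorem Sw.semistable {W V : WeierstrassCurve ℤ} {s : ℤ} (h : Sw W V (405 * W.Δ * s))
    (hW : W.IsSemistableModel) : V.IsSemistableModel := by
  intro p hp hpΔ hpc
  set m : ℤ := 405 * W.Δ * s with hm
  have hpp : Prime (p : ℤ) := Nat.prime_iff_prime_int.1 hp
  by_cases hp2 : p = 2
  · subst hp2
    exact h.n2 hpc
  have hpow := not_dvd_two_pow hp hp2
  by_cases hpm : (p : ℤ) ∣ 30 * W.Δ
  · have hpm' : (p : ℤ) ∣ m := by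
      have e : 30 * W.Δ = 2 ^ 1 * (15 * W.Δ) := by ring
      rw [e] at hpm
      have := (hpp.dvd_or_dvd hpm).resolve_left (hpow 1)
      exact this.trans ⟨27 * s, by rw [hm]; ring⟩
    have h1 : (p : ℤ) ∣ W.c₄ := by
      have h3 := hpm'.trans (C4h_bot W.c₄ W.c₆ (2 ^ 66) m)
      rw [← h.c4] at h3
      have h4 : (p : ℤ) ∣ W.c₄ * (2 ^ 66) ^ 20 := by
        have := dvd_sub (hpc.mul_left (2 ^ 40)) h3
        simpa using this
      rw [← pow_mul] at h4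
      exact (hpp.dvd_or_dvd h4).resolve_right (hpow _)
    have h2 : (p : ℤ) ∣ W.Δ := by
      have h3 : (p : ℤ) ∣ W.Δ * Dh W.c₄ W.c₆ (2 ^ 66) m ^ 5 := by
        rw [← h.d]; exact hpΔ.mul_left _
      rcases hpp.dvd_or_dvd h3 with h4 | h4
      · exact h4
      · exfalso
        have h4 := hpp.dvd_of_dvd_pow h4
        have h5 := dvd_sub h4 (hpm'.trans (Dh_bot W.c₄ W.c₆ (2 ^ 66) m))
        rw [sub_sub_cancel, ← pow_mul] at h5
        exact hpow _ h5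
    exact hW p hp h2 h1
  · have := Fact.mk hp
    let K := AlgebraicClosure (ZMod p)
    have : CharP K p := charP_of_injective_algebraMap
      (FaithfulSMul.algebraMap_injective (ZMod p) K) p
    have hz : ∀ n : ℤ, ((n : K) = 0 ↔ (p : ℤ) ∣ n) := fun n => CharP.intCast_eq_zero_iff K p n
    have hcast : ∀ n : ℤ, n ∣ 30 * W.Δ → (n : K) ≠ 0 := by
      intro n hn h0
      exact hpm (((hz n).1 h0).trans hn)
    have h2 : (2 : K) ≠ 0 := by
      have := hcast 2 ⟨15 * W.Δ, by ring⟩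
      exact_mod_cast this
    have h3 : (3 : K) ≠ 0 := by
      have := hcast 3 ⟨10 * W.Δ, by ring⟩
      exact_mod_cast this
    have h5 : (5 : K) ≠ 0 := by
      have := hcast 5 ⟨6 * W.Δ, by ring⟩
      exact_mod_cast this
    have hΔK : (W.map (Int.castRingHom K)).Δ ≠ 0 := by
      rw [WeierstrassCurve.map_Δ]
      exact hcast W.Δ ⟨30, by ring⟩
    have hpc6 : (p : ℤ) ∣ V.c₆ := by
      have hr := V.c_relation
      have : (p : ℤ) ∣ V.c₆ ^ 2 := by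
        have e : V.c₆ ^ 2 = V.c₄ ^ 3 - 1728 * V.Δ := by
          linear_combination hr
        rw [e]
        exact dvd_sub (dvd_pow hpc (by norm_num)) (hpΔ.mul_left _)
      exact hpp.dvd_of_dvd_pow this
    have e4 := congrArg (Int.castRingHom K) h.c4
    rw [map_mul, map_pow, map_C4h] at e4
    have e6 := congrArg (Int.castRingHom K) h.c6
    rw [map_mul, map_pow, map_C6h] at e6
    obtain ⟨m₀, f4, f6⟩ := fam_c (W₀ := W.map (Int.castRingHom K))
      (V₀ := V.map (Int.castRingHom K)) (m := (m : K)) h2 h3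
      (by simpa only [WeierstrassCurve.map_c₄, WeierstrassCurve.map_c₆, eq_intCast, map_ofNat,
        map_pow] using e4)
      (by simpa only [WeierstrassCurve.map_c₄, WeierstrassCurve.map_c₆, eq_intCast, map_ofNat,
        map_pow] using e6)
    have hw : (2 : K) ^ 320 ≠ 0 := pow_ne_zero _ h2
    rw [WeierstrassCurve.map_c₄, eq_intCast, (hz _).2 hpc] at f4
    rw [WeierstrassCurve.map_c₆, eq_intCast, (hz _).2 hpc6] at f6
    exact not_both_zero_alg hΔK h2 h3 h5 m₀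
      ((mul_eq_zero.1 f4.symm).resolve_left (pow_ne_zero _ hw))
      ((mul_eq_zero.1 f6.symm).resolve_left (pow_ne_zero _ hw))

end Fermat.Agent.LTF.Chain
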