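import Fermat.Agent.LTF.Chain.FiveCongr
import Fermat.Agent.Switch.Irred

/-!
# The `5`-switch at `2`: irreducibility modulo `3` and the final statement
-/

set_option autoImplicit false

namespace Fermat.Agent.LTF.Chain

open WeierstrassCurve Fermat.Agent.S52x Fermat.Agent.Switch

theorem C4h_congr {n : ℕ} {a b l m m' : ℤ} (h : (n : ℤ) ∣ m - m') :
    (n : ℤ) ∣ C4h a b l m - C4h a b l m' := by
  rw [← ZMod.intCast_zmod_eq_zero_iff_dvd] at h ⊢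
  have h' : (m : ZMod n) = m' := by rw [Int.cast_sub] at h; exact sub_eq_zero.1 h
  have e1 := map_C4h (Int.castRingHom (ZMod n)) a b l m
  have e2 := map_C4h (Int.castRingHom (ZMod n)) a b l m'
  simp only [eq_intCast] at e1 e2
  rw [Int.cast_sub, e1, e2, h', sub_self]

theorem C6h_congr {n : ℕ} {a b l m m' : ℤ} (h : (n : ℤ) ∣ m - m') :
    (n : ℤ) ∣ C6h a b l m - C6h a b l m' := by
  rw [← ZMod.intCast_zmod_eq_zero_iff_dvd] at h ⊢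
  have h' : (m : ZMod n) = m' := by rw [Int.cast_sub] at h; exact sub_eq_zero.1 h
  have e1 := map_C6h (Int.castRingHom (ZMod n)) a b l m
  have e2 := map_C6h (Int.castRingHom (ZMod n)) a b l m'
  simp only [eq_intCast] at e1 e2
  rw [Int.cast_sub, e1, e2, h', sub_self]

theorem Dh_congr {n : ℕ} {a b l m m' : ℤ} (h : (n : ℤ) ∣ m - m') :
    (n : ℤ) ∣ Dh a b l m - Dh a b l m' := by
  rw [← ZMod.intCast_zmod_eq_zero_iff_dvd] at h ⊢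
  have h' : (m : ZMod n) = m' := by rw [Int.cast_sub] at h; exact sub_eq_zero.1 h
  have e1 := map_Dh (Int.castRingHom (ZMod n)) a b l m
  have e2 := map_Dh (Int.castRingHom (ZMod n)) a b l m'
  simp only [eq_intCast] at e1 e2
  rw [Int.cast_sub, e1, e2, h', sub_self]

theorem val_aux {r : ℕ} (hr : r.Prime) {x D : ℤ} (hx : ¬ (r : ℤ) ∣ x)
    (h1 : (r : ℤ) ∣ D) (h2 : ¬ (r : ℤ) ^ 2 ∣ D) :
    (r : ℤ) ^ 5 ∣ x * D ^ 5 ∧ ¬ (r : ℤ) ^ 6 ∣ x * D ^ 5 := by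
  have hrI : Prime (r : ℤ) := Nat.prime_iff_prime_int.mp hr
  obtain ⟨k, hk⟩ := h1
  have hkr : ¬ (r : ℤ) ∣ k := by
    rintro ⟨j, rfl⟩
    apply h2
    exact ⟨j, by rw [hk]; ring⟩
  constructor
  · rw [hk, mul_pow]
    exact Dvd.dvd.mul_left (Dvd.intro _ rfl) _
  · rw [hk]
    intro h
    have e : x * ((r : ℤ) * k) ^ 5 = (r : ℤ) ^ 5 * (x * k ^ 5) := by ring
    rw [e, pow_succ] at h
    have h' : (r : ℤ) ∣ x * k ^ 5 :=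
      (mul_dvd_mul_iff_left (pow_ne_zero 5 hrI.ne_zero)).mp h
    rcases hrI.dvd_or_dvd h' with h' | h'
    · exact hx h'
    · exact hkr (hrI.dvd_of_dvd_pow h')

/-- Everything at one prime. -/
theorem Sw.local {W V : WeierstrassCurve ℤ} {m y : ℤ} (h : Sw W V m) {r : ℕ} (hr : r.Prime)
    (h5 : 5 ≤ r) (hΔ : ¬ (r : ℤ) ∣ W.c₄ ^ 3 - W.c₆ ^ 2) (hm : (r : ℤ) ^ 2 ∣ m - 2 ^ 66 * y)
    {w ε : ZMod r} (e4 : ((C4p W.c₄ W.c₆ y : ℤ) : ZMod r) = w ^ 4)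
    (e6 : ((C6p W.c₄ W.c₆ y : ℤ) : ZMod r) = ε * w ^ 6) (eD : (r : ℤ) ∣ Dp W.c₄ W.c₆ y)
    (eD' : ¬ (r : ℤ) ^ 2 ∣ Dp W.c₄ W.c₆ y) :
    (V.c₄ : ZMod r) = (2 ^ 320 * w) ^ 4 ∧ (V.c₆ : ZMod r) = ε * (2 ^ 320 * w) ^ 6 ∧
      (r : ℤ) ^ 5 ∣ V.c₄ ^ 3 - V.c₆ ^ 2 ∧ ¬ (r : ℤ) ^ 6 ∣ V.c₄ ^ 3 - V.c₆ ^ 2 := by
  have := Fact.mk hr
  have hrI : Prime (r : ℤ) := Nat.prime_iff_prime_int.mp hr
  have hpow := not_dvd_two_pow hr (by omega)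
  have h2 : (2 : ZMod r) ≠ 0 := by
    intro h0
    apply hpow 1
    rw [← ZMod.intCast_zmod_eq_zero_iff_dvd]
    rw [pow_one]; exact_mod_cast h0
  have hm1 : (r : ℤ) ∣ m - 2 ^ 66 * y := dvd_trans (dvd_pow_self _ two_ne_zero) hm
  refine ⟨?_, ?_, ?_⟩
  · have h1 := C4h_congr (a := W.c₄) (b := W.c₆) (l := 2 ^ 66) hm1
    rw [C4h_mul, ← h.c4, ← ZMod.intCast_zmod_eq_zero_iff_dvd, Int.cast_sub, sub_eq_zero,
      Int.cast_mul, Int.cast_mul, e4] at h1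
    simp only [Int.cast_pow, Int.cast_ofNat] at h1
    apply mul_left_cancel₀ (pow_ne_zero 40 h2)
    rw [h1]
    generalize (2 : ZMod r) = t
    ring
  · have h1 := C6h_congr (a := W.c₄) (b := W.c₆) (l := 2 ^ 66) hm1
    rw [C6h_mul, ← h.c6, ← ZMod.intCast_zmod_eq_zero_iff_dvd, Int.cast_sub, sub_eq_zero,
      Int.cast_mul, Int.cast_mul, e6] at h1
    simp only [Int.cast_pow, Int.cast_ofNat] at h1
    apply mul_left_cancel₀ (pow_ne_zero 60 h2)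
    rw [h1]
    generalize (2 : ZMod r) = t
    ring
  · have hD := Dh_congr (n := r ^ 2) (a := W.c₄) (b := W.c₆) (l := 2 ^ 66)
      (by rw [Nat.cast_pow]; exact hm)
    rw [Dh_mul, Nat.cast_pow] at hD
    have hD1 : (r : ℤ) ∣ Dh W.c₄ W.c₆ (2 ^ 66) m := by
      have h3 : (r : ℤ) ∣ (2 ^ 66) ^ 12 * Dp W.c₄ W.c₆ y := eD.mul_left _
      have h4 := dvd_trans (dvd_pow_self _ two_ne_zero) hD
      exact (dvd_iff_dvd_of_dvd_sub h4).2 h3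
    have hD2 : ¬ (r : ℤ) ^ 2 ∣ Dh W.c₄ W.c₆ (2 ^ 66) m := by
      intro hcon
      apply eD'
      have h3 := (dvd_iff_dvd_of_dvd_sub hD).1 hcon
      refine IsCoprime.dvd_of_dvd_mul_left ?_ h3
      rw [← pow_mul]
      exact IsCoprime.pow_left ((hrI.coprime_iff_not_dvd).2 (hpow _))
    obtain ⟨v1, v2⟩ := val_aux hr hΔ hD1 hD2
    have hs := syzygyh W.c₄ W.c₆ (2 ^ 66) m (by norm_num)
    rw [← hs, ← h.c4, ← h.c6] at v1 v2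
    have e : (2 ^ 40 * V.c₄) ^ 3 - (2 ^ 60 * V.c₆) ^ 2 = 2 ^ 120 * (V.c₄ ^ 3 - V.c₆ ^ 2) := by
      ring
    rw [e] at v1 v2
    refine ⟨IsCoprime.dvd_of_dvd_mul_left ?_ v1, fun hcon => v2 (hcon.mul_left _)⟩
    exact IsCoprime.pow_left ((hrI.coprime_iff_not_dvd).2 (hpow _))

/-- Choice of the parameter: the switched curve is irreducible modulo `3`. -/
theorem exists_parameter (W : WeierstrassCurve ℤ) (hΔ : W.Δ ≠ 0) (hW : W.IsSemistableModel) :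
    ∃ s : ℤ, ¬ (2 : ℤ) ∣ s ∧ ∀ V : WeierstrassCurve ℤ, Sw W V (405 * W.Δ * s) →
      V.ModRepIsIrreducible 3 := by
  set a := W.c₄ with ha
  set b := W.c₆ with hb
  have hab : a ^ 3 - b ^ 2 = 1728 * W.Δ := W.c_relation.symm
  have hab0 : a ^ 3 - b ^ 2 ≠ 0 := by
    rw [hab]; exact mul_ne_zero (by norm_num) hΔ
  have hab0' : a ^ 3 - (-b) ^ 2 ≠ 0 := by
    have : a ^ 3 - (-b) ^ 2 = a ^ 3 - b ^ 2 := by ring
    rw [this]; exact hab0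
  have hd0 := dc12_ne_zero hab0
  have hd0' : dc12 a (-b) = dc12 a b := by simp only [dc12]; ring
  set M : ℤ := 2 * (405 * W.Δ) with hM
  have hM0 : M ≠ 0 := mul_ne_zero (by norm_num) (mul_ne_zero (by norm_num) hΔ)
  set N : ℕ := 5 + M.natAbs + (a ^ 3 - b ^ 2).natAbs + (dc12 a b).natAbs with hN
  obtain ⟨r₁, hr₁, hNr₁, h4₁, h2₁, h3₁, u₁, v₁, hu₁, hv₁⟩ := exists_prime_point a b hab0 N
  obtain ⟨r₂, hr₂, hNr₂, h4₂, h2₂, h3₂, u₂, v₂, hu₂, hv₂⟩ :=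
    exists_prime_point a (-b) hab0' (N + r₁)
  have hM₁ : ¬ (r₁ : ℤ) ∣ M := not_dvd_of_lt hM0 (by omega)
  have hM₂ : ¬ (r₂ : ℤ) ∣ M := not_dvd_of_lt hM0 (by omega)
  have hΔ₁ : ¬ (r₁ : ℤ) ∣ a ^ 3 - b ^ 2 := not_dvd_of_lt hab0 (by omega)
  have hΔ₂ : ¬ (r₂ : ℤ) ∣ a ^ 3 - b ^ 2 := not_dvd_of_lt hab0 (by omega)
  have hΔ₂' : ¬ (r₂ : ℤ) ∣ a ^ 3 - (-b) ^ 2 := by
    have : a ^ 3 - (-b) ^ 2 = a ^ 3 - b ^ 2 := by ring
    rw [this]; exact hΔ₂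
  have hd₁ : ¬ (r₁ : ℤ) ∣ dc12 a b := not_dvd_of_lt hd0 (by omega)
  have hd₂ : ¬ (r₂ : ℤ) ∣ dc12 a (-b) := by
    rw [hd0']; exact not_dvd_of_lt hd0 (by omega)
  obtain ⟨y₁, hy₁⟩ := local_data hr₁ (by omega) hΔ₁ hd₁ hu₁ hv₁
  obtain ⟨y₂, hy₂⟩ := local_data hr₂ (by omega) hΔ₂' hd₂ hu₂ hv₂
  obtain ⟨s, hs₁, hs₂⟩ := exists_s hr₁ hr₂ (by omega) hM₁ hM₂ (2 ^ 66 * y₁ - 405 * W.Δ)
    (2 ^ 66 * (-y₂) - 405 * W.Δ)
  refine ⟨2 * s + 1, by omega, fun V hV => ?_⟩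
  obtain ⟨w₁, hw₁, e4₁, e6₁, eD₁, eD₁'⟩ := hy₁ y₁ (by rw [sub_self]; exact dvd_zero _)
  obtain ⟨w₂, hw₂, e4₂, e6₂, eD₂, eD₂'⟩ := hy₂ (-(-y₂)) (by
    rw [neg_neg, sub_self]; exact dvd_zero _)
  rw [C4p_neg] at e4₂
  rw [C6p_neg] at e6₂
  rw [Dp_neg] at eD₂ eD₂'
  have hm₁ : (r₁ : ℤ) ^ 2 ∣ 405 * W.Δ * (2 * s + 1) - 2 ^ 66 * y₁ := by
    have e : 405 * W.Δ * (2 * s + 1) - 2 ^ 66 * y₁ = M * s - (2 ^ 66 * y₁ - 405 * W.Δ) := by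
      rw [hM]; ring
    rw [e]; exact hs₁
  have hm₂ : (r₂ : ℤ) ^ 2 ∣ 405 * W.Δ * (2 * s + 1) - 2 ^ 66 * (-y₂) := by
    have e : 405 * W.Δ * (2 * s + 1) - 2 ^ 66 * (-y₂) =
        M * s - (2 ^ 66 * (-y₂) - 405 * W.Δ) := by
      rw [hM]; ring
    rw [e]; exact hs₂
  obtain ⟨f4₁, f6₁, g₁, g₁'⟩ := hV.local hr₁ (by omega) hΔ₁ hm₁ (w := w₁) (ε := -1) e4₁
    (by rw [e6₁]; ring) eD₁ eD₁'
  obtain ⟨f4₂, f6₂, g₂, g₂'⟩ := hV.local hr₂ (by omega) hΔ₂ hm₂ (w := w₂) (ε := 1) e4₂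
    (by rw [Int.cast_neg] at e6₂; rw [one_mul]; exact neg_inj.mp e6₂) eD₂ eD₂'
  have h20 : ∀ r : ℕ, r.Prime → 5 ≤ r → (2 : ZMod r) ≠ 0 := by
    intro r hr h5 h0
    have := Fact.mk hr
    apply not_dvd_two_pow hr (by omega) 1
    rw [← ZMod.intCast_zmod_eq_zero_iff_dvd]
    rw [pow_one]; exact_mod_cast h0
  have hw₁' : (2 : ZMod r₁) ^ 320 * w₁ ≠ 0 := by
    have := Fact.mk hr₁
    exact mul_ne_zero (pow_ne_zero _ (h20 r₁ hr₁ (by omega))) hw₁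
  have hw₂' : (2 : ZMod r₂) ^ 320 * w₂ ≠ 0 := by
    have := Fact.mk hr₂
    exact mul_ne_zero (pow_ne_zero _ (h20 r₂ hr₂ (by omega))) hw₂
  have hss := hV.semistable hW
  apply irreducible_of_no_root _ (hV.Δ_ne_zero hΔ)
  intro x hx
  refine core (C4 := V.c₄) (C6 := V.c₆) hx ?_ hr₁ hr₂ (by omega) (by omega)
    h4₁ h4₂ h2₁ h3₁ h2₂ h3₂ hw₁' f4₁ (by rw [f6₁, neg_one_mul]) hw₂' f4₂
    (by rw [f6₂, one_mul])
    g₁ g₁' g₂ g₂'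
  intro p hp hp5 hd
  have h1 : (p : ℤ) ∣ 1728 * V.Δ := by
    rw [V.c_relation]
    exact dvd_sub (Dvd.dvd.trans hd.1 (dvd_pow_self _ (by norm_num)))
      (Dvd.dvd.trans hd.2 (dvd_pow_self _ (by norm_num)))
  have hpI : Prime (p : ℤ) := Nat.prime_iff_prime_int.mp hp
  have h2 : (p : ℤ) ∣ V.Δ := by
    rcases hpI.dvd_or_dvd h1 with h | h
    · exfalso
      have h' : p ∣ 2 ^ 6 * 3 ^ 3 := by
        have : p ∣ 1728 := by exact_mod_cast h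
        simpa using this
      rcases (hp.dvd_mul).mp h' with h | h
      · have := Nat.le_of_dvd (by norm_num) (hp.dvd_of_dvd_pow h); omega
      · have := Nat.le_of_dvd (by norm_num) (hp.dvd_of_dvd_pow h); omega
    · exact h
  exact hss p hp h2 hd.1

theorem SS.Δ_odd {W : WeierstrassCurve ℤ} (h : SS W) : ¬ (2 : ℤ) ∣ W.Δ := by
  obtain ⟨⟨k, hk⟩, h3, h24⟩ := h
  intro hd
  apply h3
  have hp : Prime (2 : ℤ) := Int.prime_two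
  have h1 : (2 : ℤ) ∣ 27 * W.a₃ ^ 4 := by
    have e : 27 * W.a₃ ^ 4 = 2 * (-8 * (k ^ 2 + W.a₂) ^ 2 * W.b₈ - 4 * W.b₄ ^ 3
        + 18 * (k ^ 2 + W.a₂) * W.b₄ * W.b₆ - 27 * (4 * W.a₃ ^ 2 * W.a₆ + 8 * W.a₆ ^ 2))
        - W.Δ := by
      simp only [WeierstrassCurve.Δ, WeierstrassCurve.b₂, WeierstrassCurve.b₆, hk]
      ring
    rw [e]
    exact dvd_sub (Dvd.intro _ rfl) hd
  rcases hp.dvd_or_dvd h1 with h1 | h1
  · omega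
  · exact hp.dvd_of_dvd_pow h1

/-- **The `5`-switch at a curve with supersingular reduction at `2`.** -/
theorem exists_five_switch_two (W : WeierstrassCurve ℤ) (hΔ : W.Δ ≠ 0)
    (hW : W.IsSemistableModel) (hSS : SS W) :
    ∃ V : WeierstrassCurve ℤ, V.Δ ≠ 0 ∧ V.IsSemistableModel ∧ (2 : ℤ) ∣ V.Δ ∧
      V.ModRepIsIrreducible 3 ∧
      ∀ ℓ : ℕ, ℓ.Prime → ℓ ≠ 5 → W.IsGoodPrimeFor ℓ → V.IsGoodPrimeFor ℓ →
        (5 : ℤ) ∣ V.apOfModel ℓ - W.apOfModel ℓ := by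
  obtain ⟨s, hs, hirr⟩ := exists_parameter W hΔ hW
  have hm2 : ¬ (2 : ℤ) ∣ 405 * W.Δ * s := by
    intro h
    have h1 := hSS.Δ_odd
    have hp : Prime (2 : ℤ) := Int.prime_two
    rcases hp.dvd_or_dvd h with h | h
    · rcases hp.dvd_or_dvd h with h | h
      · omega
      · exact h1 h
    · exact hs h
  obtain ⟨V, h4, h6, hd, hn2, hd2, hb2, hb4, hb6⟩ :=
    exists_switch_two hSS hm2 ⟨5 * W.Δ * s, by ring⟩
  have hV : Sw W V (405 * W.Δ * s) := ⟨h4, h6, hd, hn2, hd2, hb2, hb4, hb6⟩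
  exact ⟨V, hV.Δ_ne_zero hΔ, hV.semistable hW, hd2, hirr V hV,
    fun ℓ hℓ h5 hgW hgV => hV.congr ℓ hℓ h5 hgW hgV⟩

end Fermat.Agent.LTF.Chain
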