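import Fermat.Agent.S52.Semistable


/-!
# Homogeneous forms of the icosahedral family
-/

set_option autoImplicit false
set_option linter.unusedVariables false

namespace Fermat.Agent.LTF.Chain

open Fermat.Agent.S52x

section forms

variable {R : Type*} [CommRing R]

/-- homogeneous form of `C4p` -/
def C4h (a b l m : R) : R :=
    c4c0 a b * l ^ 20 + c4c1 a b * l ^ 19 * m + c4c2 a b * l ^ 18 * m ^ 2
    + c4c3 a b * l ^ 17 * m ^ 3 + c4c4 a b * l ^ 16 * m ^ 4 + c4c5 a b * l ^ 15 * m ^ 5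
    + c4c6 a b * l ^ 14 * m ^ 6 + c4c7 a b * l ^ 13 * m ^ 7 + c4c8 a b * l ^ 12 * m ^ 8
    + c4c9 a b * l ^ 11 * m ^ 9 + c4c10 a b * l ^ 10 * m ^ 10 + c4c11 a b * l ^ 9 * m ^ 11
    + c4c12 a b * l ^ 8 * m ^ 12 + c4c13 a b * l ^ 7 * m ^ 13 + c4c14 a b * l ^ 6 * m ^ 14
    + c4c15 a b * l ^ 5 * m ^ 15 + c4c16 a b * l ^ 4 * m ^ 16 + c4c17 a b * l ^ 3 * m ^ 17
    + c4c18 a b * l ^ 2 * m ^ 18 + c4c19 a b * l * m ^ 19 + c4c20 a b * m ^ 20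

/-- homogeneous form of `C6p` -/
def C6h (a b l m : R) : R :=
    c6c0 a b * l ^ 30 + c6c1 a b * l ^ 29 * m + c6c2 a b * l ^ 28 * m ^ 2
    + c6c3 a b * l ^ 27 * m ^ 3 + c6c4 a b * l ^ 26 * m ^ 4 + c6c5 a b * l ^ 25 * m ^ 5
    + c6c6 a b * l ^ 24 * m ^ 6 + c6c7 a b * l ^ 23 * m ^ 7 + c6c8 a b * l ^ 22 * m ^ 8
    + c6c9 a b * l ^ 21 * m ^ 9 + c6c10 a b * l ^ 20 * m ^ 10 + c6c11 a b * l ^ 19 * m ^ 11
    + c6c12 a b * l ^ 18 * m ^ 12 + c6c13 a b * l ^ 17 * m ^ 13 + c6c14 a b * l ^ 16 * m ^ 14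
    + c6c15 a b * l ^ 15 * m ^ 15 + c6c16 a b * l ^ 14 * m ^ 16 + c6c17 a b * l ^ 13 * m ^ 17
    + c6c18 a b * l ^ 12 * m ^ 18 + c6c19 a b * l ^ 11 * m ^ 19 + c6c20 a b * l ^ 10 * m ^ 20
    + c6c21 a b * l ^ 9 * m ^ 21 + c6c22 a b * l ^ 8 * m ^ 22 + c6c23 a b * l ^ 7 * m ^ 23
    + c6c24 a b * l ^ 6 * m ^ 24 + c6c25 a b * l ^ 5 * m ^ 25 + c6c26 a b * l ^ 4 * m ^ 26
    + c6c27 a b * l ^ 3 * m ^ 27 + c6c28 a b * l ^ 2 * m ^ 28 + c6c29 a b * l * m ^ 29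
    + c6c30 a b * m ^ 30

/-- homogeneous form of `Dp` -/
def Dh (a b l m : R) : R :=
    l ^ 12 + dc2 a b * l ^ 10 * m ^ 2 + dc3 a b * l ^ 9 * m ^ 3 + dc4 a b * l ^ 8 * m ^ 4
    + dc5 a b * l ^ 7 * m ^ 5 + dc6 a b * l ^ 6 * m ^ 6 + dc7 a b * l ^ 5 * m ^ 7
    + dc8 a b * l ^ 4 * m ^ 8 + dc9 a b * l ^ 3 * m ^ 9 + dc10 a b * l ^ 2 * m ^ 10
    + dc11 a b * l * m ^ 11 + dc12 a b * m ^ 12

theorem C4h_mul (a b l t : R) : C4h a b l (l * t) = l ^ 20 * C4p a b t := by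
  simp only [C4h, C4p]; ring

theorem C6h_mul (a b l t : R) : C6h a b l (l * t) = l ^ 30 * C6p a b t := by
  simp only [C6h, C6p]; ring

theorem Dh_mul (a b l t : R) : Dh a b l (l * t) = l ^ 12 * Dp a b t := by
  simp only [Dh, Dp]; ring

theorem C4h_top (a b l m : R) : l ∣ C4h a b l m - c4c20 a b * m ^ 20 :=
  ⟨c4c0 a b * l ^ 19 + c4c1 a b * l ^ 18 * m + c4c2 a b * l ^ 17 * m ^ 2
    + c4c3 a b * l ^ 16 * m ^ 3 + c4c4 a b * l ^ 15 * m ^ 4 + c4c5 a b * l ^ 14 * m ^ 5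
    + c4c6 a b * l ^ 13 * m ^ 6 + c4c7 a b * l ^ 12 * m ^ 7 + c4c8 a b * l ^ 11 * m ^ 8
    + c4c9 a b * l ^ 10 * m ^ 9 + c4c10 a b * l ^ 9 * m ^ 10 + c4c11 a b * l ^ 8 * m ^ 11
    + c4c12 a b * l ^ 7 * m ^ 12 + c4c13 a b * l ^ 6 * m ^ 13 + c4c14 a b * l ^ 5 * m ^ 14
    + c4c15 a b * l ^ 4 * m ^ 15 + c4c16 a b * l ^ 3 * m ^ 16 + c4c17 a b * l ^ 2 * m ^ 17
    + c4c18 a b * l * m ^ 18 + c4c19 a b * m ^ 19,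
    by simp only [C4h]; ring⟩

theorem C6h_top (a b l m : R) : l ∣ C6h a b l m - c6c30 a b * m ^ 30 :=
  ⟨c6c0 a b * l ^ 29 + c6c1 a b * l ^ 28 * m + c6c2 a b * l ^ 27 * m ^ 2
    + c6c3 a b * l ^ 26 * m ^ 3 + c6c4 a b * l ^ 25 * m ^ 4 + c6c5 a b * l ^ 24 * m ^ 5
    + c6c6 a b * l ^ 23 * m ^ 6 + c6c7 a b * l ^ 22 * m ^ 7 + c6c8 a b * l ^ 21 * m ^ 8
    + c6c9 a b * l ^ 20 * m ^ 9 + c6c10 a b * l ^ 19 * m ^ 10 + c6c11 a b * l ^ 18 * m ^ 11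
    + c6c12 a b * l ^ 17 * m ^ 12 + c6c13 a b * l ^ 16 * m ^ 13 + c6c14 a b * l ^ 15 * m ^ 14
    + c6c15 a b * l ^ 14 * m ^ 15 + c6c16 a b * l ^ 13 * m ^ 16 + c6c17 a b * l ^ 12 * m ^ 17
    + c6c18 a b * l ^ 11 * m ^ 18 + c6c19 a b * l ^ 10 * m ^ 19 + c6c20 a b * l ^ 9 * m ^ 20
    + c6c21 a b * l ^ 8 * m ^ 21 + c6c22 a b * l ^ 7 * m ^ 22 + c6c23 a b * l ^ 6 * m ^ 23
    + c6c24 a b * l ^ 5 * m ^ 24 + c6c25 a b * l ^ 4 * m ^ 25 + c6c26 a b * l ^ 3 * m ^ 26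
    + c6c27 a b * l ^ 2 * m ^ 27 + c6c28 a b * l * m ^ 28 + c6c29 a b * m ^ 29,
    by simp only [C6h]; ring⟩

theorem Dh_top (a b l m : R) : l ∣ Dh a b l m - dc12 a b * m ^ 12 :=
  ⟨l ^ 11 + dc2 a b * l ^ 9 * m ^ 2 + dc3 a b * l ^ 8 * m ^ 3 + dc4 a b * l ^ 7 * m ^ 4
    + dc5 a b * l ^ 6 * m ^ 5 + dc6 a b * l ^ 5 * m ^ 6 + dc7 a b * l ^ 4 * m ^ 7
    + dc8 a b * l ^ 3 * m ^ 8 + dc9 a b * l ^ 2 * m ^ 9 + dc10 a b * l * m ^ 10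
    + dc11 a b * m ^ 11,
    by simp only [Dh]; ring⟩

theorem C4h_bot (a b l m : R) : m ∣ C4h a b l m - a * l ^ 20 :=
  ⟨c4c1 a b * l ^ 19 + c4c2 a b * l ^ 18 * m + c4c3 a b * l ^ 17 * m ^ 2
    + c4c4 a b * l ^ 16 * m ^ 3 + c4c5 a b * l ^ 15 * m ^ 4 + c4c6 a b * l ^ 14 * m ^ 5
    + c4c7 a b * l ^ 13 * m ^ 6 + c4c8 a b * l ^ 12 * m ^ 7 + c4c9 a b * l ^ 11 * m ^ 8
    + c4c10 a b * l ^ 10 * m ^ 9 + c4c11 a b * l ^ 9 * m ^ 10 + c4c12 a b * l ^ 8 * m ^ 11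
    + c4c13 a b * l ^ 7 * m ^ 12 + c4c14 a b * l ^ 6 * m ^ 13 + c4c15 a b * l ^ 5 * m ^ 14
    + c4c16 a b * l ^ 4 * m ^ 15 + c4c17 a b * l ^ 3 * m ^ 16 + c4c18 a b * l ^ 2 * m ^ 17
    + c4c19 a b * l * m ^ 18 + c4c20 a b * m ^ 19,
    by simp only [C4h, c4c0]; ring⟩

theorem C6h_bot (a b l m : R) : m ∣ C6h a b l m - b * l ^ 30 :=
  ⟨c6c1 a b * l ^ 29 + c6c2 a b * l ^ 28 * m + c6c3 a b * l ^ 27 * m ^ 2
    + c6c4 a b * l ^ 26 * m ^ 3 + c6c5 a b * l ^ 25 * m ^ 4 + c6c6 a b * l ^ 24 * m ^ 5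
    + c6c7 a b * l ^ 23 * m ^ 6 + c6c8 a b * l ^ 22 * m ^ 7 + c6c9 a b * l ^ 21 * m ^ 8
    + c6c10 a b * l ^ 20 * m ^ 9 + c6c11 a b * l ^ 19 * m ^ 10 + c6c12 a b * l ^ 18 * m ^ 11
    + c6c13 a b * l ^ 17 * m ^ 12 + c6c14 a b * l ^ 16 * m ^ 13 + c6c15 a b * l ^ 15 * m ^ 14
    + c6c16 a b * l ^ 14 * m ^ 15 + c6c17 a b * l ^ 13 * m ^ 16 + c6c18 a b * l ^ 12 * m ^ 17
    + c6c19 a b * l ^ 11 * m ^ 18 + c6c20 a b * l ^ 10 * m ^ 19 + c6c21 a b * l ^ 9 * m ^ 20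
    + c6c22 a b * l ^ 8 * m ^ 21 + c6c23 a b * l ^ 7 * m ^ 22 + c6c24 a b * l ^ 6 * m ^ 23
    + c6c25 a b * l ^ 5 * m ^ 24 + c6c26 a b * l ^ 4 * m ^ 25 + c6c27 a b * l ^ 3 * m ^ 26
    + c6c28 a b * l ^ 2 * m ^ 27 + c6c29 a b * l * m ^ 28 + c6c30 a b * m ^ 29,
    by simp only [C6h, c6c0]; ring⟩

theorem Dh_bot (a b l m : R) : m ∣ Dh a b l m - l ^ 12 :=
  ⟨dc2 a b * l ^ 10 * m + dc3 a b * l ^ 9 * m ^ 2 + dc4 a b * l ^ 8 * m ^ 3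
    + dc5 a b * l ^ 7 * m ^ 4 + dc6 a b * l ^ 6 * m ^ 5 + dc7 a b * l ^ 5 * m ^ 6
    + dc8 a b * l ^ 4 * m ^ 7 + dc9 a b * l ^ 3 * m ^ 8 + dc10 a b * l ^ 2 * m ^ 9
    + dc11 a b * l * m ^ 10 + dc12 a b * m ^ 11,
    by simp only [Dh]; ring⟩

theorem c4c20_two (x y : R) : c4c20 (16 * x) (8 * y) =
    2 ^ 40 * (-11000 * x ^ 2 * y ^ 6 + 2128896 * x ^ 5 * y ^ 4 - 137325375 * x ^ 8 * y ^ 2
      + 2952450000 * x ^ 11) := by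
  simp only [c4c20]; ring

theorem c6c30_two (x y : R) : c6c30 (16 * x) (8 * y) =
    2 ^ 60 * (25000 * y ^ 11 - 8360000 * x ^ 3 * y ^ 9 + 1116155700 * x ^ 6 * y ^ 7
      - 74382704352 * x ^ 9 * y ^ 5 + 2474608269375 * x ^ 12 * y ^ 3
      - 32882911875000 * x ^ 15 * y) := by
  simp only [c6c30]; ring

theorem dc12_two (x y : R) : dc12 (16 * x) (8 * y) =
    2 ^ 24 * (25 * y ^ 4 - 3024 * x ^ 3 * y ^ 2 + 91125 * x ^ 6) := by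
  simp only [dc12]; ring

section map
variable {S : Type*} [CommRing S] (f : R →+* S)

theorem map_C4h (a b l m : R) : f (C4h a b l m) = C4h (f a) (f b) (f l) (f m) := by
  simp only [C4h, map_add, map_mul, map_pow, c4c0, c4c1, c4c2, c4c3, c4c4, c4c5, c4c6, c4c7, c4c8,
    c4c9, c4c10, c4c11, c4c12, c4c13, c4c14, c4c15, c4c16, c4c17, c4c18, c4c19, c4c20, map_sub,
    map_neg, map_ofNat]

theorem map_C6h (a b l m : R) : f (C6h a b l m) = C6h (f a) (f b) (f l) (f m) := by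
  simp only [C6h, map_add, map_mul, map_pow, c6c0, c6c1, c6c2, c6c3, c6c4, c6c5, c6c6, c6c7, c6c8,
    c6c9, c6c10, c6c11, c6c12, c6c13, c6c14, c6c15, c6c16, c6c17, c6c18, c6c19, c6c20, c6c21,
    c6c22, c6c23, c6c24, c6c25, c6c26, c6c27, c6c28, c6c29, c6c30, map_sub, map_neg, map_ofNat]

theorem map_Dh (a b l m : R) : f (Dh a b l m) = Dh (f a) (f b) (f l) (f m) := by
  simp only [Dh, map_add, map_mul, map_pow, dc2, dc3, dc4, dc5, dc6, dc7, dc8, dc9, dc10, dc11,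
    dc12, map_sub, map_neg, map_ofNat]

end map

end forms

section field

variable {F : Type*} [Field F]

theorem C4h_eq {l : F} (hl : l ≠ 0) (a b m : F) : C4h a b l m = l ^ 20 * C4p a b (m / l) := by
  rw [← C4h_mul]; congr 1; field_simp

theorem C6h_eq {l : F} (hl : l ≠ 0) (a b m : F) : C6h a b l m = l ^ 30 * C6p a b (m / l) := by
  rw [← C6h_mul]; congr 1; field_simp

theorem Dh_eq {l : F} (hl : l ≠ 0) (a b m : F) : Dh a b l m = l ^ 12 * Dp a b (m / l) := by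
  rw [← Dh_mul]; congr 1; field_simp

end field

theorem syzygyh (a b l m : ℤ) (hl : l ≠ 0) :
    C4h a b l m ^ 3 - C6h a b l m ^ 2 = (a ^ 3 - b ^ 2) * Dh a b l m ^ 5 := by
  have hlQ : (l : ℚ) ≠ 0 := by exact_mod_cast hl
  have h4 := map_C4h (Int.castRingHom ℚ) a b l m
  have h6 := map_C6h (Int.castRingHom ℚ) a b l m
  have hD := map_Dh (Int.castRingHom ℚ) a b l m
  simp only [eq_intCast] at h4 h6 hD
  have : ((C4h a b l m ^ 3 - C6h a b l m ^ 2 : ℤ) : ℚ) =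
      (((a ^ 3 - b ^ 2) * Dh a b l m ^ 5 : ℤ) : ℚ) := by
    push_cast
    rw [h4, h6, hD, C4h_eq hlQ, C6h_eq hlQ, Dh_eq hlQ]
    have := syzygy (a : ℚ) (b : ℚ) ((m : ℚ) / l)
    linear_combination (l : ℚ) ^ 60 * this
  exact_mod_cast this

end Fermat.Agent.LTF.Chain
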