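import Mathlib
import Fermat.Agent.LTF.Local3

/-!
# Local data at an auxiliary prime for the `3`-family with a fixed first coordinate
-/

set_option autoImplicit false

namespace Fermat.Agent.LTF.Chain

open WeierstrassCurve

/-- derivative in the second variable -/
def G3t {R : Type*} [CommRing R] (W : WeierstrassCurve R) (s t : R) : R :=
  W.b₂ * s ^ 3 + 18 * W.b₄ * s ^ 2 * t + 81 * W.b₆ * s * t ^ 2 + 108 * W.b₈ * t ^ 3

theorem G3_euler {R : Type*} [CommRing R] (W : WeierstrassCurve R) (s t : R) :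
    s * G3s W s t + t * G3t W s t = 4 * G3 W s t := by
  unfold G3s G3t G3; ring

theorem local5 {W : WeierstrassCurve ℤ} {r : ℕ} (hr : r.Prime) (hr3 : 3 < r)
    (hΔ : ¬ (r : ℤ) ∣ W.Δ) (hc4 : ¬ (r : ℤ) ∣ W.c₄) (hb8 : ¬ (r : ℤ) ∣ W.b₈)
    (h3 : IsSquare (3 : ZMod r)) {x : ZMod r}
    (hx : D3 (W.c₄ : ZMod r) (W.c₆ : ZMod r) x 1 = 0) {s : ℤ} (hs : ¬ (r : ℤ) ∣ s) :
    ∃ y : ℤ, ∀ t : ℤ, (r : ℤ) ^ 2 ∣ t - y → (r : ℤ) ∣ G3 W s t ∧ ¬ (r : ℤ) ^ 2 ∣ G3 W s t ∧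
      ∃ w : ZMod r, ((fam3 W s t).c₆ : ZMod r) = x * w ^ 2 := by
  have : Fact r.Prime := ⟨hr⟩
  have hcast : ∀ z : ℤ, (z : ZMod r) = 0 ↔ (r : ℤ) ∣ z :=
    fun z => ZMod.intCast_zmod_eq_zero_iff_dvd z r
  have h2 : (2 : ZMod r) ≠ 0 := two_ne hr (by omega)
  have h3' : (3 : ZMod r) ≠ 0 := three_ne hr (by omega)
  have h4 : (4 : ZMod r) ≠ 0 := four_ne hr (by omega)
  have hs' : (s : ZMod r) ≠ 0 := fun h => hs ((hcast s).1 h)
  -- `x ≠ b₂`
  have hxb : x - W.b₂ ≠ 0 := by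
    intro h
    have hxe : x = W.b₂ := sub_eq_zero.1 h
    have e := congrArg (Int.castRingHom (ZMod r)) (fam3_G3 W 0 1)
    rw [map_mul, map_D3] at e
    simp only [mul_zero, zero_add, mul_one, eq_intCast, Int.cast_one] at e
    rw [← hxe, hx] at e
    have hG : G3 W 0 1 = 27 * W.b₈ := by unfold G3; ring
    rw [hG] at e
    push_cast at e
    have : (2 : ZMod r) ^ 8 * (3 ^ 3 * (W.b₈ : ZMod r)) = 0 := by linear_combination e
    have := (mul_eq_zero.1 ((mul_eq_zero.1 this).resolve_left (pow_ne_zero _ h2))).resolve_left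
      (pow_ne_zero _ h3')
    exact hb8 ((hcast _).1 this)
  -- `x ≠ 0`
  have hx0 : x ≠ 0 := by
    intro h
    rw [h] at hx
    unfold D3 at hx
    have : (3 : ZMod r) * (W.c₄ : ZMod r) ^ 2 = 0 := by linear_combination -hx
    have := (mul_eq_zero.1 this).resolve_left h3'
    exact hc4 ((hcast _).1 (pow_eq_zero_iff two_ne_zero |>.1 this))
  obtain ⟨y0, hy0⟩ := ZMod.intCast_surjective (4 * (s : ZMod r) / (x - (W.b₂ : ZMod r)))
  have hlin : ∀ t : ℤ, (t : ZMod r) = y0 → 4 * (s : ZMod r) + W.b₂ * t = x * t := by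
    intro t ht
    rw [ht, hy0]
    field_simp
    ring
  have hGt : ∀ t : ℤ, (t : ZMod r) = y0 → (r : ℤ) ∣ G3 W s t := by
    intro t ht
    rw [← hcast]
    have e := congrArg (Int.castRingHom (ZMod r)) (fam3_G3 W s t)
    rw [map_mul, map_D3] at e
    simp only [eq_intCast] at e
    push_cast at e
    rw [hlin t ht, show (x * (t : ZMod r)) = t * x by ring,
      show D3 (W.c₄ : ZMod r) (W.c₆ : ZMod r) (t * x) t =
        D3 (W.c₄ : ZMod r) (W.c₆ : ZMod r) (t * x) (t * 1) by rw [mul_one], D3_smul, hx,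
      mul_zero] at e
    have : (2 : ZMod r) ^ 8 * ((G3 W s t : ℤ) : ZMod r) = 0 := by linear_combination e
    exact (mul_eq_zero.1 this).resolve_left (pow_ne_zero _ h2)
  have hGtt : ¬ (r : ℤ) ∣ G3t W s y0 := by
    intro hd
    have h1 := G3_euler W s y0
    have h2 : (r : ℤ) ∣ s * G3s W s y0 := by
      have : s * G3s W s y0 = 4 * G3 W s y0 - y0 * G3t W s y0 := by linarith
      rw [this]
      exact dvd_sub (Dvd.dvd.mul_left (hGt y0 rfl) _) (Dvd.dvd.mul_left hd _)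
    have hrI : Prime (r : ℤ) := Nat.prime_iff_prime_int.1 hr
    exact hs (good_D W hr (by omega) (by omega) hΔ (hGt y0 rfl)
      ((hrI.dvd_or_dvd h2).resolve_left hs)).1
  have key : ∃ y : ℤ, (y : ZMod r) = y0 ∧ ¬ (r : ℤ) ^ 2 ∣ G3 W s y := by
    by_contra hcon
    push Not at hcon
    have e0 := hcon y0 rfl
    have e1 := hcon (y0 + r) (by simp)
    have e2 : (r : ℤ) ^ 2 ∣ r * G3t W s y0 := by
      have e3 : G3 W s (y0 + r) - G3 W s y0 - r * G3t W s y0 =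
          (r : ℤ) ^ 2 * (9 * W.b₄ * s ^ 2 + 27 * W.b₆ * s * (3 * y0 + r) +
            27 * W.b₈ * (6 * y0 ^ 2 + 4 * y0 * r + r ^ 2)) := by
        unfold G3 G3t; ring
      have e4 : (r : ℤ) ^ 2 ∣ G3 W s (y0 + r) - G3 W s y0 - r * G3t W s y0 := ⟨_, e3⟩
      have e5 := dvd_sub (dvd_sub e1 e0) e4
      rwa [sub_sub_cancel] at e5
    rw [pow_two] at e2
    have hr0 : (r : ℤ) ≠ 0 := by exact_mod_cast hr.ne_zero
    exact hGtt ((mul_dvd_mul_iff_left hr0).1 e2)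
  obtain ⟨y, hy, hyG⟩ := key
  refine ⟨y, fun t ht => ?_⟩
  have ht' : (t : ZMod r) = y0 := by
    rw [← hy]
    have : (r : ℤ) ∣ t - y := (dvd_pow_self _ two_ne_zero).trans ht
    rw [← hcast] at this
    push_cast at this
    exact sub_eq_zero.1 this
  refine ⟨hGt t ht', ?_, ?_⟩
  · intro h
    apply hyG
    have := G3_congr W (m := (r : ℤ) ^ 2) (s := s) (s' := s) (t := y) (t' := t) (by simp) ht
    simpa using dvd_sub h this
  · obtain ⟨q, hq⟩ := h3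
    have e := congrArg (Int.castRingHom (ZMod r)) (fam3_c₆ W s t)
    rw [map_mul, map_C63] at e
    simp only [eq_intCast] at e
    push_cast at e
    rw [hlin t ht', show (x * (t : ZMod r)) = t * x by ring,
      show C63 (W.c₄ : ZMod r) (W.c₆ : ZMod r) (t * x) t =
        C63 (W.c₄ : ZMod r) (W.c₆ : ZMod r) (t * x) (t * 1) by rw [mul_one], C63_smul] at e
    have hid := cusp_id6 (W.c₄ : ZMod r) (W.c₆ : ZMod r) x
    rw [hx, zero_mul] at hid
    refine ⟨q * 3 * (x ^ 2 - (W.c₄ : ZMod r)) ^ 3 * (t : ZMod r) ^ 3 / (2 ^ 9 * x ^ 2), ?_⟩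
    have e1 : (4096 : ZMod r) * 64 * x ^ 3 * ((fam3 W s t).c₆ : ZMod r) =
        27 * (x ^ 2 - (W.c₄ : ZMod r)) ^ 6 * (t : ZMod r) ^ 6 := by
      linear_combination 64 * x ^ 3 * e + (t : ZMod r) ^ 6 * hid
    have e2 : (2 : ZMod r) ^ 18 * x ^ 3 * ((fam3 W s t).c₆ : ZMod r) =
        2 ^ 18 * x ^ 3 * (x * (q * 3 * (x ^ 2 - (W.c₄ : ZMod r)) ^ 3 * (t : ZMod r) ^ 3 /
          (2 ^ 9 * x ^ 2)) ^ 2) := by
      field_simp
      linear_combination e1 + 9 * (x ^ 2 - (W.c₄ : ZMod r)) ^ 6 * (t : ZMod r) ^ 6 * hq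
    exact mul_left_cancel₀ (mul_ne_zero (pow_ne_zero _ h2) (pow_ne_zero _ hx0)) e2

end Fermat.Agent.LTF.Chain
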