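import Fermat.Agent.LTF.Chain.Local5
import Fermat.Agent.LTF.Chain.Irr5
import Fermat.Agent.LTF.Chain.Two
import Fermat.Agent.LTF.Chain.FiveIrr
import Fermat.Agent.LTF.Switch3
import Fermat.Agent.Switch.Irred

/-!
# The `3`-switch to a curve which is supersingular at `2` and irreducible modulo `5`
-/

set_option autoImplicit false

namespace Fermat.Agent.LTF.Chain

open WeierstrassCurve

/-- The data of an auxiliary prime. -/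
def PrimeCusp (c4 c6 : ℤ) (N : ℕ) (b : Bool) : Prop :=
  ∃ r : ℕ, r.Prime ∧ N < r ∧ r % 4 = 3 ∧ IsSquare (2 : ZMod r) ∧ IsSquare (3 : ZMod r) ∧
    IsSquare (5 : ZMod r) ∧
    (∃ n : ZMod r, n ^ 2 = 125 ∧ IsSquare (n * (n + 11)) ∧ IsSquare (n * (n - 11))) ∧
    ∃ x : ZMod r, D3 (c4 : ZMod r) (c6 : ZMod r) x 1 = 0 ∧ IsSquare (if b then x else -x)

theorem not_pow_four {D G : ℤ} {r : ℕ} (hr : r.Prime) (hD : ¬ (r : ℤ) ∣ D) (h1 : (r : ℤ) ∣ G)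
    (h2 : ¬ (r : ℤ) ^ 2 ∣ G) : (r : ℤ) ^ 3 ∣ D * G ^ 3 ∧ ¬ (r : ℤ) ^ 4 ∣ D * G ^ 3 := by
  have hr0 : (r : ℤ) ≠ 0 := by exact_mod_cast hr.ne_zero
  have hrI : Prime (r : ℤ) := Nat.prime_iff_prime_int.1 hr
  refine ⟨Dvd.dvd.mul_left (pow_dvd_pow_of_dvd h1 3) _, fun h => ?_⟩
  obtain ⟨g, rfl⟩ := h1
  have e : D * ((r : ℤ) * g) ^ 3 = (r : ℤ) ^ 3 * (D * g ^ 3) := by ring
  rw [e, pow_succ (r : ℤ) 3, mul_dvd_mul_iff_left (pow_ne_zero _ hr0)] at h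
  rcases hrI.dvd_or_dvd h with h | h
  · exact hD h
  · apply h2
    rw [pow_two]
    exact mul_dvd_mul_left _ (hrI.dvd_of_dvd_pow h)

theorem exists_three_switch (W : WeierstrassCurve ℤ) (hΔ : W.Δ ≠ 0) (hW : W.IsSemistableModel)
    (h2 : ¬ (2 : ℤ) ∣ W.Δ) (h3 : W.ModRepIsIrreducible 3)
    (hP : ∀ (N : ℕ) (b : Bool), PrimeCusp W.c₄ W.c₆ N b)
    (hT : ∃ s0 t0 : ℤ, ((s0 = 1 ∧ t0 = 0) ∨ (s0 = 1 ∧ t0 = 1) ∨ (s0 = 0 ∧ t0 = 1)) ∧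
      ∀ s t : ℤ, (2 : ℤ) ∣ s - s0 → (2 : ℤ) ∣ t - t0 → SS (fam3 W s t))
    (hC : ∀ s t : ℤ, ¬ ((2 : ℤ) ∣ s ∧ (2 : ℤ) ∣ t) → ¬ (2 : ℤ) ∣ (fam3 W s t).Δ →
      (3 : ℤ) ∣ (fam3 W s t).apOfModel 2 - W.apOfModel 2) :
    ∃ V : WeierstrassCurve ℤ, V.Δ ≠ 0 ∧ V.IsSemistableModel ∧ SS V ∧ V.ModRepIsIrreducible 5 ∧
      ∀ ℓ : ℕ, ℓ.Prime → ℓ ≠ 3 → W.IsGoodPrimeFor ℓ → V.IsGoodPrimeFor ℓ →
        (3 : ℤ) ∣ V.apOfModel ℓ - W.apOfModel ℓ := by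
  have hc0 : W.c₄ ≠ 0 := c₄_ne_zero W hW
  have hb8 : W.b₈ ≠ 0 := by
    intro h
    have := quartic_ne_zero W hΔ h3 0 1 (by rw [h]; ring)
    exact one_ne_zero this.2
  obtain ⟨s0, t0, hst, hSS⟩ := hT
  obtain ⟨s, hs, hs0⟩ : ∃ s : ℤ, (s = 1 ∨ s = 2) ∧ (2 : ℤ) ∣ s - s0 := by
    rcases hst with h | h | h
    · exact ⟨1, Or.inl rfl, by rw [h.1]; norm_num⟩
    · exact ⟨1, Or.inl rfl, by rw [h.1]; norm_num⟩
    · exact ⟨2, Or.inr rfl, by rw [h.1]; norm_num⟩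
  have hsr : ∀ r : ℕ, r.Prime → r ≠ 2 → ¬ (r : ℤ) ∣ s := by
    intro r hr hr2 h
    rcases hs with rfl | rfl
    · have h' : r ∣ 1 := by exact_mod_cast h
      exact hr.one_lt.ne' (Nat.dvd_one.1 h')
    · have h' : r ∣ 2 := by exact_mod_cast h
      exact hr2 ((Nat.prime_dvd_prime_iff_eq hr Nat.prime_two).1 h')
  set N : ℕ := 6 + (6 * W.Δ).natAbs + W.c₄.natAbs + W.b₈.natAbs + W.Δ.natAbs with hN
  have h6Δ : 6 * W.Δ ≠ 0 := mul_ne_zero (by norm_num) hΔ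
  obtain ⟨r₁, hr₁, hN₁, h4₁, h2₁, h3₁, h5₁, hn₁, x₁, hx₁, hsq₁⟩ := hP N false
  obtain ⟨r₂, hr₂, hN₂, h4₂, h2₂, h3₂, h5₂, hn₂, x₂, hx₂, hsq₂⟩ := hP (N + r₁) true
  have hM₁ : ¬ (r₁ : ℤ) ∣ 6 * W.Δ := Switch.not_dvd_of_lt h6Δ (by omega)
  have hM₂ : ¬ (r₂ : ℤ) ∣ 6 * W.Δ := Switch.not_dvd_of_lt h6Δ (by omega)
  have hΔ₁ : ¬ (r₁ : ℤ) ∣ W.Δ := Switch.not_dvd_of_lt hΔ (by omega)
  have hΔ₂ : ¬ (r₂ : ℤ) ∣ W.Δ := Switch.not_dvd_of_lt hΔ (by omega)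
  obtain ⟨y₁, hy₁⟩ := local5 (W := W) hr₁ (by omega) hΔ₁ (Switch.not_dvd_of_lt hc0 (by omega))
    (Switch.not_dvd_of_lt hb8 (by omega)) h3₁ hx₁ (hsr r₁ hr₁ (by omega))
  obtain ⟨y₂, hy₂⟩ := local5 (W := W) hr₂ (by omega) hΔ₂ (Switch.not_dvd_of_lt hc0 (by omega))
    (Switch.not_dvd_of_lt hb8 (by omega)) h3₂ hx₂ (hsr r₂ hr₂ (by omega))
  obtain ⟨k, hk₁, hk₂⟩ := Switch.exists_s hr₁ hr₂ (by omega) hM₁ hM₂
    (y₁ - 3 * W.Δ * t0) (y₂ - 3 * W.Δ * t0)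
  set t : ℤ := 6 * W.Δ * k + 3 * W.Δ * t0 with ht
  have ht₁ : (r₁ : ℤ) ^ 2 ∣ t - y₁ := by
    rw [ht, show 6 * W.Δ * k + 3 * W.Δ * t0 - y₁ = 6 * W.Δ * k - (y₁ - 3 * W.Δ * t0) by ring]
    exact hk₁
  have ht₂ : (r₂ : ℤ) ^ 2 ∣ t - y₂ := by
    rw [ht, show 6 * W.Δ * k + 3 * W.Δ * t0 - y₂ = 6 * W.Δ * k - (y₂ - 3 * W.Δ * t0) by ring]
    exact hk₂
  have ht0 : (2 : ℤ) ∣ t - t0 := by
    obtain ⟨j, hj⟩ : ∃ j, W.Δ = 2 * j + 1 := ⟨W.Δ / 2, by omega⟩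
    rw [ht, hj]
    exact ⟨(6 * j + 3) * 2 * k - 3 * k * (2 * j + 1) + 3 * j * t0 + t0, by ring⟩
  have ht3Δ : 3 * W.Δ ∣ t := ⟨2 * k + t0, by rw [ht]; ring⟩
  have hSSV : SS (fam3 W s t) := hSS s t hs0 ht0
  have hVodd : ¬ (2 : ℤ) ∣ (fam3 W s t).Δ := by
    have := SS.Δ_odd hSSV
    intro h
    omega
  obtain ⟨hG₁, hG₁', w₁, hw₁⟩ := hy₁ t ht₁
  obtain ⟨hG₂, hG₂', w₂, hw₂⟩ := hy₂ t ht₂
  have hΔ' : (fam3 W s t).Δ = W.Δ * G3 W s t ^ 3 := fam3_Δ W s t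
  have hG0 : G3 W s t ≠ 0 := by
    intro h
    apply hG₁'
    rw [h]; exact dvd_zero _
  have hV0 : (fam3 W s t).Δ ≠ 0 := by
    rw [hΔ']; exact mul_ne_zero hΔ (pow_ne_zero _ hG0)
  have hss : (fam3 W s t).IsSemistableModel := by
    intro p hp hpd hpc
    have hpI : Prime (p : ℤ) := Nat.prime_iff_prime_int.1 hp
    have hp2 : p ≠ 2 := by
      rintro rfl
      exact hVodd (by exact_mod_cast hpd)
    rw [hΔ'] at hpd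
    by_cases hp3Δ : (p : ℤ) ∣ 3 * W.Δ
    · have hpt : (p : ℤ) ∣ t := hp3Δ.trans ht3Δ
      have hG : ¬ (p : ℤ) ∣ G3 W s t := by
        intro h
        have h1 := G3_congr W (m := (p : ℤ)) (s := s) (s' := s) (t := 0) (t' := t) (by simp)
          (by simpa using hpt)
        have h2 := dvd_sub h h1
        rw [sub_sub_cancel] at h2
        have h3 : G3 W s 0 = s ^ 4 := by unfold G3; ring
        rw [h3] at h2
        exact hsr p hp hp2 (hpI.dvd_of_dvd_pow h2)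
      have hpΔ : (p : ℤ) ∣ W.Δ := by
        rcases hpI.dvd_or_dvd hpd with h | h
        · exact h
        · exact absurd (hpI.dvd_of_dvd_pow h) hG
      apply hW p hp hpΔ
      have h1 := c₄_congr W (m := (p : ℤ)) (s := s) (s' := s) (t := 0) (t' := t) (by simp)
          (by simpa using hpt)
      have h2 := dvd_sub hpc h1
      rw [sub_sub_cancel] at h2
      have h3 : (fam3 W s 0).c₄ = s ^ 4 * W.c₄ := by
        rw [fam3_c₄_int, WeierstrassCurve.c₄]; ring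
      rw [h3] at h2
      rcases hpI.dvd_or_dvd h2 with h | h
      · exact absurd (hpI.dvd_of_dvd_pow h) (hsr p hp hp2)
      · exact h
    · have hp3 : p ≠ 3 := by
        rintro rfl
        exact hp3Δ (Dvd.intro _ rfl)
      have hpΔ : ¬ (p : ℤ) ∣ W.Δ := fun h => hp3Δ (Dvd.dvd.mul_left h _)
      have hG : (p : ℤ) ∣ G3 W s t := hpI.dvd_of_dvd_pow ((hpI.dvd_or_dvd hpd).resolve_left hpΔ)
      exact hsr p hp hp2 (good_C W hp hp2 hp3 hpΔ hG hpc).1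
  have hA₁ : Aux5 r₁ := ⟨hr₁, by omega, h4₁, h2₁, h5₁, hn₁⟩
  have hA₂ : Aux5 r₂ := ⟨hr₂, by omega, h4₂, h2₂, h5₂, hn₂⟩
  refine ⟨fam3 W s t, hV0, hss, hSSV, ?_, ?_⟩
  · have hd₁ := not_pow_four hr₁ hΔ₁ hG₁ hG₁'
    have hd₂ := not_pow_four hr₂ hΔ₂ hG₂ hG₂'
    rw [← hΔ'] at hd₁ hd₂
    refine irreducible_five _ hV0 hss hA₁ hA₂ hd₁.1 hd₁.2 hd₂.1 hd₂.2 ?_ ?_
    · rw [hw₁, ← neg_mul]
      simp only [Bool.false_eq_true, if_false] at hsq₁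
      exact hsq₁.mul (IsSquare.sq _)
    · rw [hw₂]
      simp only [if_true] at hsq₂
      exact hsq₂.mul (IsSquare.sq _)
  · intro ℓ hℓ hℓ3 hg hg'
    by_cases hℓ2 : ℓ = 2
    · subst hℓ2
      refine hC s t ?_ hVodd
      rintro ⟨hd1, hd2⟩
      rcases hst with h | h | h <;> omega
    · refine apOfModel_congr3 (4 * s + W.b₂ * t) t 4 ℓ hℓ hℓ2 hℓ3 ?_ hg hg' ?_ ?_
      · intro h
        have h1 : (ℓ : ℤ) ∣ ((4 : ℕ) : ℤ) := by simpa using h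
        have h2 : ℓ ∣ 2 ^ 2 := by simpa using Int.natCast_dvd_natCast.1 h1
        exact hℓ2 ((Nat.prime_dvd_prime_iff_eq hℓ Nat.prime_two).1 (hℓ.dvd_of_dvd_pow h2))
      · have := fam3_c₄ W s t
        linear_combination this
      · have := fam3_c₆ W s t
        linear_combination this

end Fermat.Agent.LTF.Chain
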