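import Fermat.Agent.Switch.PrimeHom
import Fermat.Agent.LTF.Chain.Three
import Mathlib.FieldTheory.AlgebraicClosure
import Mathlib.Topology.Order.IntermediateValue

/-!
# Auxiliary primes for the `3`-family with prescribed signs at the cusps
-/

set_option autoImplicit false

namespace Fermat.Agent.LTF.Chain

/-- Ring homomorphisms from rings generated by real algebraic numbers to prime fields. -/
theorem exists_prime_hom_real {ι : Type} [Fintype ι] (v : ι → ℝ)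
    (hv : ∀ i, v i ∈ algebraicClosure ℚ ℝ) (N : ℕ) :
    ∃ r : ℕ, r.Prime ∧ N < r ∧ r % 4 = 3 ∧
      ∃ (A : Type) (_ : CommRing A) (g : A →+* ℝ) (_ : A →+* ZMod r) (w : ι → A),
        Function.Injective g ∧ ∀ i, g (w i) = v i := by
  classical
  set T : Set ℝ := Set.range v with hT
  have hTfin : T.Finite := Set.finite_range v
  have : Finite T := hTfin
  have hfd : FiniteDimensional ℚ (IntermediateField.adjoin ℚ T) := by
    apply IntermediateField.finiteDimensional_adjoin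
    rintro x ⟨i, rfl⟩
    rw [← mem_algebraicClosure_iff']
    exact hv i
  let w' : ι → IntermediateField.adjoin ℚ T := fun i =>
    ⟨v i, IntermediateField.subset_adjoin ℚ T ⟨i, rfl⟩⟩
  obtain ⟨r, hr, hNr, hr4, ⟨f⟩⟩ := Switch.exists_prime_hom (K := IntermediateField.adjoin ℚ T)
    (Finset.univ.image w') N
  set A := Algebra.adjoin ℤ ((Finset.univ.image w' : Finset (IntermediateField.adjoin ℚ T)) :
    Set (IntermediateField.adjoin ℚ T)) with hA
  let g : A →+* ℝ := (algebraMap (IntermediateField.adjoin ℚ T) ℝ).comp A.val.toRingHom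
  have hg : Function.Injective g := by
    intro x y hxy
    exact Subtype.ext (Subtype.ext hxy)
  refine ⟨r, hr, hNr, hr4, A, inferInstance, g, f,
    fun i => ⟨w' i, Algebra.subset_adjoin (by simp)⟩, hg, fun i => rfl⟩

/-- A positive root of the quartic. -/
theorem exists_pos_root (c4 c6 : ℝ) (h4 : c4 ≠ 0) :
    ∃ y : ℝ, 0 < y ∧ y ^ 4 - 6 * c4 * y ^ 2 - 8 * c6 * y - 3 * c4 ^ 2 = 0 := by
  set b : ℝ := 1 + 6 * |c4| + 8 * |c6| + 3 * c4 ^ 2 with hb
  have n4 := abs_nonneg c4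
  have n6 := abs_nonneg c6
  have nc := sq_nonneg c4
  have hb1 : 1 ≤ b := by rw [hb]; nlinarith
  have h0 : (0 : ℝ) ^ 4 - 6 * c4 * 0 ^ 2 - 8 * c6 * 0 - 3 * c4 ^ 2 < 0 := by
    have : 0 < c4 ^ 2 := by positivity
    nlinarith
  have h1 : 0 ≤ b ^ 4 - 6 * c4 * b ^ 2 - 8 * c6 * b - 3 * c4 ^ 2 := by
    have e4 : c4 ≤ |c4| := le_abs_self _
    have e6 : c6 ≤ |c6| := le_abs_self _
    have hb0 : 0 ≤ b := by linarith
    have hb2 : 0 ≤ b ^ 2 := sq_nonneg _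
    have hb3 : b ≤ b ^ 3 := by nlinarith [sq_nonneg (b - 1), sq_nonneg b]
    have hb23 : b ^ 2 ≤ b ^ 3 := by nlinarith
    have hb13 : 1 ≤ b ^ 3 := by linarith
    have hb30 : 0 ≤ b ^ 3 := by linarith
    have key : b ^ 4 = b ^ 3 + 6 * |c4| * b ^ 3 + 8 * |c6| * b ^ 3 + 3 * c4 ^ 2 * b ^ 3 := by
      have : b ^ 4 = b * b ^ 3 := by ring
      rw [this]
      nth_rewrite 1 [hb]
      ring
    have t1 : 6 * c4 * b ^ 2 ≤ 6 * |c4| * b ^ 3 := by
      calc 6 * c4 * b ^ 2 ≤ 6 * |c4| * b ^ 2 := by nlinarith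
        _ ≤ 6 * |c4| * b ^ 3 := by nlinarith
    have t2 : 8 * c6 * b ≤ 8 * |c6| * b ^ 3 := by
      calc 8 * c6 * b ≤ 8 * |c6| * b := by nlinarith
        _ ≤ 8 * |c6| * b ^ 3 := by nlinarith
    have t3 : 3 * c4 ^ 2 ≤ 3 * c4 ^ 2 * b ^ 3 := by nlinarith
    linarith
  have hcont : Continuous fun y : ℝ => y ^ 4 - 6 * c4 * y ^ 2 - 8 * c6 * y - 3 * c4 ^ 2 := by
    fun_prop
  obtain ⟨θ, hθ, hθ0⟩ : ∃ θ ∈ Set.Icc 0 b,
      θ ^ 4 - 6 * c4 * θ ^ 2 - 8 * c6 * θ - 3 * c4 ^ 2 = 0 :=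
    intermediate_value_Icc (by linarith) hcont.continuousOn ⟨h0.le, h1⟩
  refine ⟨θ, lt_of_le_of_ne hθ.1 ?_, hθ0⟩
  rintro rfl
  rw [hθ0] at h0
  exact lt_irrefl _ h0

theorem sqrt_mem {x : ℝ} (hx : 0 ≤ x) (h : x ∈ algebraicClosure ℚ ℝ) :
    Real.sqrt x ∈ algebraicClosure ℚ ℝ := by
  rw [mem_algebraicClosure_iff'] at h ⊢
  have : IsIntegral ℚ (Real.sqrt x ^ 2) := by rwa [Real.sq_sqrt hx]
  exact this.of_pow (by norm_num)

theorem exists_prime_pos (c4 c6 : ℤ) (h4 : c4 ≠ 0) (N : ℕ) :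
    ∃ r : ℕ, r.Prime ∧ N < r ∧ r % 4 = 3 ∧ IsSquare (2 : ZMod r) ∧ IsSquare (3 : ZMod r) ∧
      IsSquare (5 : ZMod r) ∧
      (∃ n : ZMod r, n ^ 2 = 125 ∧ IsSquare (n * (n + 11)) ∧ IsSquare (n * (n - 11))) ∧
      ∃ x : ZMod r, D3 (c4 : ZMod r) (c6 : ZMod r) x 1 = 0 ∧ IsSquare x := by
  obtain ⟨θ, hθ, hθ0⟩ := exists_pos_root (c4 : ℝ) c6 (by exact_mod_cast h4)
  have hθA : θ ∈ algebraicClosure ℚ ℝ := by
    rw [mem_algebraicClosure_iff']
    refine ⟨Polynomial.X ^ 4 - Polynomial.C (6 * (c4 : ℚ)) * Polynomial.X ^ 2 -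
      Polynomial.C (8 * (c6 : ℚ)) * Polynomial.X - Polynomial.C (3 * (c4 : ℚ) ^ 2), ?_, ?_⟩
    · rw [sub_sub, sub_sub]
      apply Polynomial.monic_X_pow_sub
      compute_degree!
    · simp only [Polynomial.eval₂_sub, Polynomial.eval₂_mul, Polynomial.eval₂_pow,
        Polynomial.eval₂_X, Polynomial.eval₂_C]
      simp only [eq_ratCast]
      push_cast
      linarith [hθ0]
  have hnat : ∀ k : ℕ, (k : ℝ) ∈ algebraicClosure ℚ ℝ := fun k => natCast_mem _ k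
  have h2A := sqrt_mem (x := 2) (by norm_num) (by simp)
  have h3A := sqrt_mem (x := 3) (by norm_num) (by simp)
  have h5A := sqrt_mem (x := 5) (by norm_num) (by simp)
  set n : ℝ := 5 * Real.sqrt 5 with hn
  have hnA : n ∈ algebraicClosure ℚ ℝ := mul_mem (by simp) h5A
  have hn2 : n ^ 2 = 125 := by
    rw [hn, mul_pow, Real.sq_sqrt (by norm_num)]; norm_num
  have hn0 : 0 < n := by rw [hn]; positivity
  have hn11 : 11 < n := by nlinarith
  have hpA : n * (n + 11) ∈ algebraicClosure ℚ ℝ :=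
    mul_mem hnA (add_mem hnA (by simp))
  have hmA : n * (n - 11) ∈ algebraicClosure ℚ ℝ :=
    mul_mem hnA (sub_mem hnA (by simp))
  have hp0 : 0 ≤ n * (n + 11) := by nlinarith
  have hm0 : 0 ≤ n * (n - 11) := by nlinarith
  obtain ⟨r, hr, hNr, hr4, A, hA, g, f, w, hg, hw⟩ := exists_prime_hom_real
    (![Real.sqrt θ, Real.sqrt 2, Real.sqrt 3, Real.sqrt 5, Real.sqrt (n * (n + 11)),
      Real.sqrt (n * (n - 11))] : Fin 6 → ℝ) (by
      intro i
      fin_cases i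
      · exact sqrt_mem hθ.le hθA
      · exact h2A
      · exact h3A
      · exact h5A
      · exact sqrt_mem hp0 hpA
      · exact sqrt_mem hm0 hmA) N
  have w0 : g (w 0) = Real.sqrt θ := hw 0
  have w1 : g (w 1) = Real.sqrt 2 := hw 1
  have w2 : g (w 2) = Real.sqrt 3 := hw 2
  have w3 : g (w 3) = Real.sqrt 5 := hw 3
  have w4 : g (w 4) = Real.sqrt (n * (n + 11)) := hw 4
  have w5 : g (w 5) = Real.sqrt (n * (n - 11)) := hw 5
  have e1 : w 1 ^ 2 = 2 := hg (by rw [map_pow, w1, Real.sq_sqrt (by norm_num), map_ofNat])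
  have e2 : w 2 ^ 2 = 3 := hg (by rw [map_pow, w2, Real.sq_sqrt (by norm_num), map_ofNat])
  have e3 : w 3 ^ 2 = 5 := hg (by rw [map_pow, w3, Real.sq_sqrt (by norm_num), map_ofNat])
  have e4 : w 4 ^ 2 = (5 * w 3) * (5 * w 3 + 11) := hg (by
    rw [map_pow, w4, Real.sq_sqrt hp0, map_mul, map_add, map_mul, w3, map_ofNat, map_ofNat])
  have e5 : w 5 ^ 2 = (5 * w 3) * (5 * w 3 - 11) := hg (by
    rw [map_pow, w5, Real.sq_sqrt hm0, map_mul, map_sub, map_mul, w3, map_ofNat, map_ofNat])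
  have e0 : D3 (c4 : A) (c6 : A) (w 0 ^ 2) 1 = 0 := hg (by
    rw [map_D3, map_pow, w0, Real.sq_sqrt hθ.le, map_intCast, map_intCast, map_one, map_zero]
    unfold D3
    linear_combination hθ0)
  refine ⟨r, hr, hNr, hr4, ⟨f (w 1), ?_⟩, ⟨f (w 2), ?_⟩, ⟨f (w 3), ?_⟩, ⟨5 * f (w 3), ?_,
    ⟨f (w 4), ?_⟩, ⟨f (w 5), ?_⟩⟩, f (w 0) ^ 2, ?_, IsSquare.sq _⟩
  · rw [← map_mul, ← pow_two, e1, map_ofNat]
  · rw [← map_mul, ← pow_two, e2, map_ofNat]
  · rw [← map_mul, ← pow_two, e3, map_ofNat]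
  · rw [mul_pow, ← map_pow, e3, map_ofNat]; norm_num
  · rw [← map_mul, ← pow_two, e4, map_mul, map_add, map_mul, map_ofNat, map_ofNat]
  · rw [← map_mul, ← pow_two, e5, map_mul, map_sub, map_mul, map_ofNat, map_ofNat]
  · have := congrArg f e0
    rwa [map_D3, map_pow, map_intCast, map_intCast, map_one, map_zero] at this

theorem primeCusp (c4 c6 : ℤ) (h4 : c4 ≠ 0) (N : ℕ) (b : Bool) : PrimeCusp c4 c6 N b := by
  cases b
  · obtain ⟨r, hr, hN, h1, h2, h3, h5, hn, x, hx, hsq⟩ := exists_prime_pos c4 (-c6) h4 N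
    refine ⟨r, hr, hN, h1, h2, h3, h5, hn, -x, ?_, ?_⟩
    · unfold D3 at hx ⊢
      push_cast at hx
      linear_combination hx
    · simpa using hsq
  · obtain ⟨r, hr, hN, h1, h2, h3, h5, hn, x, hx, hsq⟩ := exists_prime_pos c4 c6 h4 N
    exact ⟨r, hr, hN, h1, h2, h3, h5, hn, x, hx, by simpa using hsq⟩

end Fermat.Agent.LTF.Chain
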