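import Fermat.Agent.LTF.Chain.Three
import Fermat.Agent.LTF.Chain.Two3
import Fermat.Agent.LTF.Chain.Prime3
import Fermat.Agent.Top.Landed

/-!
# Residual modularity modulo `3` of all semistable curves

`resThree`: from the `2`-adic modularity theorem and modularity lifting at `3` and `5`, every
semistable curve `W` with `W[3]` irreducible is residually modular at `3`.
-/

set_option autoImplicit false

namespace Fermat.Agent.LTF.Chain

open WeierstrassCurve Fermat.Agent.S60aux Fermat.Agent.Top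

theorem resThree_of (hP : ∀ (c4 c6 : ℤ), c4 ≠ 0 → ∀ (N : ℕ) (b : Bool), PrimeCusp c4 c6 N b)
    (hL : TwoAdic) (hlift : LiftSf) : ResThree := by
  intro W hΔ hW h3
  by_cases h2 : (2 : ℤ) ∣ W.Δ
  · exact resThreeTwo_of goodSwitch hL W hΔ hW h2 h3
  by_cases h0 : (2 : ℤ) ∣ W.a₁ ∧ ¬ (2 : ℤ) ∣ W.a₃ ∧ (2 : ℤ) ∣ W.a₂ + W.a₄
  · obtain ⟨W', hW', hcong⟩ := exists_good_switch_supersingular W hΔ hW
      (even_iff_two_dvd.2 h0.1) (Int.not_even_iff_odd.1 fun h => h0.2.1 (even_iff_two_dvd.1 h))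
      (even_iff_two_dvd.2 h0.2.2) h3
    exact resThree_of_congruent (hL W' hW') fun ℓ hℓ h1 h2 h3 => hcong ℓ hℓ h3 h1 h2
  · obtain ⟨V, hΔV, hV, hSS, hV5, hcongV⟩ := exists_three_switch W hΔ hW h2 h3
      (hP W.c₄ W.c₆ (c₄_ne_zero W hW)) (exists_SS_class W h2 h0)
      fun s t hst hg => apOfModel_two_congr W s t hst h2 hg
    obtain ⟨U, hΔU, hU, h2U, hU3, hcongU⟩ := exists_five_switch_two V hΔV hV hSS
    -- `U` is residually modular at `3`, hence modular
    obtain ⟨M, hM, hresU⟩ := resThreeTwo_of goodSwitch hL U hΔU hU h2U hU3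
    have hUmod := hlift 3 (Or.inl rfl) U hΔU hU hU3 M hM hresU
    -- `V` is residually modular at `5`, hence modular
    obtain ⟨N, -, hsq, hresV⟩ := residually_of_congruent (p := 5) (W := V) (W' := U)
      (by norm_num) hUmod (by
        intro ℓ hℓ h1 h2 h5
        exact_mod_cast hcongU ℓ hℓ h5 h1 h2)
    have hVmod := hlift 5 (Or.inr rfl) V hΔV hV hV5 N hsq hresV
    exact resThree_of_congruent hVmod fun ℓ hℓ h1 h2 h3 => hcongV ℓ hℓ h3 h1 h2

/-- **Residual modularity modulo `3`** of all semistable curves with irreducible `3`-torsion. -/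
theorem resThree (hL : TwoAdic) (hlift : LiftSf) : ResThree :=
  resThree_of primeCusp hL hlift

/-- `S60`. -/
theorem s60_of_open (hL : TwoAdic) (hlift : LiftSf) (W : WeierstrassCurve ℤ) (hΔ : W.Δ ≠ 0)
    (hW : W.IsSemistableModel) : (W.map (Int.castRingHom ℚ)).IsModular :=
  s60_of (resThree hL hlift) hlift switch35 S51.result W hΔ hW

/-- `S50`. -/
theorem s50_of_open (hL : TwoAdic) (hlift : LiftSf) : StmtS50 :=
  s50_of (resThree hL hlift)

end Fermat.Agent.LTF.Chain
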