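import Mathlib
import Fermat.Agent.LTF.Switch3

/-!
# Members of the 3-family in prescribed residue classes
-/

set_option autoImplicit false

namespace Fermat.Agent.LTF

open WeierstrassCurve

/-- Members of the 3-family in prescribed classes modulo squares of primes, with squarefree cusp
form away from these primes, in a prescribed direction. -/
theorem exists_member_classes (W : WeierstrassCurve ℤ) (hΔ : W.Δ ≠ 0)
    (h3 : W.ModRepIsIrreducible 3) (T : Finset ℕ) (hT : ∀ r ∈ T, r.Prime)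
    (hsmall : ∀ r : ℕ, r.Prime → r < 13 → r ∈ T)
    (hbad : ∀ r : ℕ, r.Prime → (r : ℤ) ∣ W.Δ → r ∈ T)
    (f g : ℕ → ℤ) (hprim : ∀ r ∈ T, ¬ ((r : ℤ) ∣ f r ∧ (r : ℤ) ∣ g r))
    (x0 y0 : ℤ) (ε : ℝ) (hxy : 0 < ε * G3 (W.map (Int.castRingHom ℝ)) x0 y0) :
    ∃ s t : ℤ, IsCoprime s t ∧ 0 < ε * (G3 W s t : ℤ) ∧
      (∀ r ∈ T, (r : ℤ) ^ 2 ∣ s - f r ∧ (r : ℤ) ^ 2 ∣ t - g r) ∧
      (∀ r : ℕ, r.Prime → r ∉ T → ¬ (r : ℤ) ^ 2 ∣ G3 W s t) ∧
      (∀ r : ℕ, r.Prime → r ∉ T → (r : ℤ) ∣ G3 W s t → ¬ (r : ℤ) ∣ (fam3 W s t).c₄) := by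
  classical
  set M : ℕ := ∏ r ∈ T, r ^ 2 with hM
  have hMpos : 0 < M := Finset.prod_pos fun r hr => pow_pos (hT r hr).pos 2
  have hdvdM : ∀ r : ℕ, r.Prime → (r ∣ M ↔ r ∈ T) := by
    intro r hr
    constructor
    · intro h
      obtain ⟨q, hq, hrq⟩ := (Prime.dvd_finsetProd_iff hr.prime _).1 h
      have h1 : r ∣ q := hr.dvd_of_dvd_pow hrq
      rwa [(Nat.prime_dvd_prime_iff_eq hr (hT q hq)).1 h1]
    · intro h
      exact (dvd_pow_self _ two_ne_zero).trans (Finset.dvd_prod_of_mem _ h)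
  have hsqM : ∀ r ∈ T, (r : ℤ) ^ 2 ∣ (M : ℤ) := by
    intro r hr
    have : r ^ 2 ∣ M := Finset.dvd_prod_of_mem (fun r => r ^ 2) hr
    exact_mod_cast Int.natCast_dvd_natCast.2 this
  have hsmall' : ∀ r : ℕ, r.Prime → r < 13 → r ∣ M := fun r hr h =>
    (hdvdM r hr).2 (hsmall r hr h)
  have hgood : ∀ r : ℕ, r.Prime → ¬ r ∣ M → ¬ (r : ℤ) ∣ W.Δ := fun r hr hrM h =>
    hrM ((hdvdM r hr).2 (hbad r hr h))
  obtain ⟨s0, hs0⟩ := crt_sq T hT f
  obtain ⟨t0, ht0⟩ := crt_sq T hT g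
  obtain ⟨C, hC0, hC⟩ := exists_dir (W.map (Int.castRingHom ℝ)) x0 y0 _ hxy
  obtain ⟨N, hN0, hNpos, a, b, ha, hb, hcop, hsq⟩ := Sieve.exists_sqfree (cf W) M hMpos hsmall'
    (by
      intro r hr _ h
      have h1 : cf W 4 = 1 := rfl
      rw [h1] at h
      have h2 : (r : ℤ) ∣ ((1 : ℕ) : ℤ) := by simpa using h
      exact hr.one_lt.ne' (Nat.dvd_one.1 (Int.natCast_dvd_natCast.1 h2)))
    (by
      intro r hr hrM s t ht hF hFs
      rw [F_cf] at hF
      rw [Fs_cf] at hFs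
      have h2 : r ≠ 2 := by
        rintro rfl
        exact hrM (hsmall' 2 hr (by norm_num))
      have h3 : r ≠ 3 := by
        rintro rfl
        exact hrM (hsmall' 3 hr (by norm_num))
      exact ht (good_D W hr h2 h3 (hgood r hr hrM) hF hFs).2)
    (by
      intro s t h
      rw [F_cf] at h
      exact quartic_ne_zero W hΔ h3 s t h)
    s0 t0 (by
      intro r hr hrM h
      have hrT := (hdvdM r hr).1 hrM
      refine hprim r hrT ⟨?_, ?_⟩
      · have := dvd_sub h.1 ((dvd_pow_self (r : ℤ) two_ne_zero).trans (hs0 r hrT))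
        simpa using this
      · have := dvd_sub h.2 ((dvd_pow_self (r : ℤ) two_ne_zero).trans (ht0 r hrT))
        simpa using this)
    (C * x0) (C * y0) (s0.natAbs + t0.natAbs + 1)
  set s : ℤ := s0 + M * (C * x0 * N) + M * (a : ℤ) with hs
  set t : ℤ := t0 + M * (C * y0 * N) + M * (b : ℤ) with ht
  refine ⟨s, t, hcop, ?_, ?_, ?_, ?_⟩
  · -- the sign
    have hMN : (0 : ℝ) < (M : ℝ) * N := by positivity
    have hN1 : (s0.natAbs : ℝ) + t0.natAbs + 1 ≤ N := by exact_mod_cast hN0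
    have hM1 : (1 : ℝ) ≤ M := by exact_mod_cast hMpos
    have hbd : ∀ (z0 : ℤ) (c : ℕ), (z0.natAbs : ℝ) ≤ N → c < N →
        |(z0 : ℝ) + M * (c : ℝ)| ≤ 2 * (M * N) := by
      intro z0 c h1 h2
      have h3 : |(z0 : ℝ)| = (z0.natAbs : ℝ) := by
        rw [Nat.cast_natAbs, Int.cast_abs]
      have h4 : (c : ℝ) ≤ N := by exact_mod_cast h2.le
      calc |(z0 : ℝ) + M * (c : ℝ)| ≤ |(z0 : ℝ)| + |(M : ℝ) * c| := abs_add_le _ _
        _ = z0.natAbs + M * c := by rw [h3, abs_of_nonneg (by positivity)]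
        _ ≤ N + M * N := by gcongr
        _ ≤ M * N + M * N := by
          have : (N : ℝ) ≤ M * N := le_mul_of_one_le_left (by positivity) hM1
          linarith
        _ = 2 * (M * N) := by ring
    have hpos := hC (M * N) hMN (s : ℝ) (t : ℝ)
      (by
        have e : (s : ℝ) - C * (M * N) * x0 = s0 + M * (a : ℝ) := by
          rw [hs]; push_cast; ring
        rw [e]
        refine hbd s0 a ?_ ha
        have : (0 : ℝ) ≤ t0.natAbs := by positivity
        linarith)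
      (by
        have e : (t : ℝ) - C * (M * N) * y0 = t0 + M * (b : ℝ) := by
          rw [ht]; push_cast; ring
        rw [e]
        refine hbd t0 b ?_ hb
        have : (0 : ℝ) ≤ s0.natAbs := by positivity
        linarith)
    have e : G3 (W.map (Int.castRingHom ℝ)) (s : ℝ) (t : ℝ) = ((G3 W s t : ℤ) : ℝ) :=
      (map_G3 (Int.castRingHom ℝ) W s t).symm
    rw [e] at hpos
    exact hpos
  · intro r hr
    constructor
    · have : s - f r = (s0 - f r) + M * (C * x0 * N + a) := by rw [hs]; ring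
      rw [this]
      exact dvd_add (hs0 r hr) (Dvd.dvd.mul_right (hsqM r hr) _)
    · have : t - g r = (t0 - g r) + M * (C * y0 * N + b) := by rw [ht]; ring
      rw [this]
      exact dvd_add (ht0 r hr) (Dvd.dvd.mul_right (hsqM r hr) _)
  · intro r hr hrT
    have := hsq r hr (fun h => hrT ((hdvdM r hr).1 h))
    rwa [F_cf] at this
  · intro r hr hrT hG hc
    have h2 : r ≠ 2 := by
      rintro rfl
      exact hrT (hsmall 2 hr (by norm_num))
    have h3 : r ≠ 3 := by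
      rintro rfl
      exact hrT (hsmall 3 hr (by norm_num))
    have hΔr : ¬ (r : ℤ) ∣ W.Δ := fun h => hrT (hbad r hr h)
    obtain ⟨h4, h5⟩ := good_C W hr h2 h3 hΔr hG hc
    have h6 := (hcop.isUnit_of_dvd' h4 h5).dvd (a := (1 : ℤ))
    have h7 : (r : ℤ) ∣ ((1 : ℕ) : ℤ) := by simpa using h6
    exact hr.one_lt.ne' (Nat.dvd_one.1 (Int.natCast_dvd_natCast.1 h7))

end Fermat.Agent.LTF
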